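import Mathlib
import Fermat.Prelude.Def_GroupCohomology_ContinuousUnramified
import Fermat.Prelude.Def_GroupCohomology_SelmerAdm
import Fermat.Prelude.Def_GaloisRep_StrictOrdinary
import Fermat.Prelude.Def_GaloisRep_Flat

/-!
# Program TW (S56): common definitions (helper52, program architect)

This file fixes the objects that every work package of program TW talks about.

* `GQ`                      : the absolute Galois group of `ℚ`.
* `adRep ρbar`              : the adjoint action of `GQ` on `End_k(ρbar.V)`.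
* `End0 ρbar`               : trace-zero endomorphisms, a `k`-submodule of `End_k(ρbar.V)`.
* `ad0 p ρbar`              : `ad⁰ ρbar` as an object of `Rep (ZMod p) GQ` (restriction of
                              scalars along `ZMod p → k`); its carrier is `↥(End0 ρbar)`.
* `ad0Dual p ρbar`          : `(ad0 p ρbar).dualTwist (cycloChar p)`, the Tate dual.
* `IsLiftCocycle ρbar ρ c`  : in suitable bases the lift `ρ` of `ρbar` to `k[ε]` has matrices
                              `(1 + ε c(g)) ρbar(g)`.
* `IsLiftClass p ρbar ρ x`  : `x ∈ H¹(GQ, ad0)` is the class of such a cocycle.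
* `ResIso ρbar ρ`           : the residual representation of `ρ` is `ρbar`.
* `TangentBound ρbar 𝒟 r`   : any finite family of pairwise inequivalent lifts of type `𝒟`
                              of `ρbar` to `k[ε]` has at most `|k|^r` members.
* `locAt q`, `resAt q M`    : the local group at a prime and the restricted module.
-/

set_option autoImplicit false

open CategoryTheory Module groupCohomology ExtCitation

namespace Fermat.Agent.TW.Spec.Defs52

/-- The absolute Galois group of `ℚ`. -/
abbrev GQ : Type := AlgebraicClosure ℚ ≃ₐ[ℚ] AlgebraicClosure ℚ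

section Adjoint

variable {k : Type} [Field k] (ρbar : ResidualGaloisRep k)

/-- The adjoint action of `GQ` on `End_k(ρbar.V)`: `g • f = ρbar(g) f ρbar(g)⁻¹`. -/
noncomputable def adRep : Representation k GQ (Module.End k ρbar.V) where
  toFun g :=
    { toFun := fun f => ρbar.ρ g * f * ρbar.ρ g⁻¹
      map_add' := fun f f' => by rw [mul_add, add_mul]
      map_smul' := fun a f => by
        rw [RingHom.id_apply, mul_smul_comm, smul_mul_assoc] }
  map_one' := by
    ext f : 1
    show ρbar.ρ 1 * f * ρbar.ρ (1 : GQ)⁻¹ = f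
    rw [inv_one, map_one, one_mul, mul_one]
  map_mul' g h := by
    ext f : 1
    show ρbar.ρ (g * h) * f * ρbar.ρ (g * h)⁻¹ = ρbar.ρ g * (ρbar.ρ h * f * ρbar.ρ h⁻¹) * ρbar.ρ g⁻¹
    rw [mul_inv_rev, map_mul, map_mul]
    simp only [mul_assoc]

theorem adRep_apply (g : GQ) (f : Module.End k ρbar.V) :
    adRep ρbar g f = ρbar.ρ g * f * ρbar.ρ g⁻¹ := rfl

/-- Trace-zero endomorphisms of `ρbar.V`. -/
noncomputable def End0 : Submodule k (Module.End k ρbar.V) :=
  LinearMap.ker (LinearMap.trace k ρbar.V)

theorem mem_End0_iff (f : Module.End k ρbar.V) :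
    f ∈ End0 ρbar ↔ LinearMap.trace k ρbar.V f = 0 := LinearMap.mem_ker

theorem adRep_mem_End0 (g : GQ) {f : Module.End k ρbar.V} (hf : f ∈ End0 ρbar) :
    adRep ρbar g f ∈ End0 ρbar := by
  rw [mem_End0_iff] at hf ⊢
  rw [adRep_apply, LinearMap.trace_mul_comm, ← mul_assoc, ← map_mul, inv_mul_cancel, map_one,
    one_mul, hf]

/-- `ad⁰ ρbar` as a `k`-linear representation on `↥(End0 ρbar)`. -/
noncomputable def ad0Rep : Representation k GQ (End0 ρbar) where
  toFun g := (adRep ρbar g).restrict fun _ hf => adRep_mem_End0 ρbar g hf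
  map_one' := by
    ext f : 2
    show adRep ρbar 1 (f : Module.End k ρbar.V) = f
    rw [map_one, Module.End.one_apply]
  map_mul' g h := by
    ext f : 2
    show adRep ρbar (g * h) (f : Module.End k ρbar.V) = adRep ρbar g (adRep ρbar h f)
    rw [map_mul, Module.End.mul_apply]

theorem ad0Rep_apply_coe (g : GQ) (f : End0 ρbar) :
    ((ad0Rep ρbar g f : End0 ρbar) : Module.End k ρbar.V) = ρbar.ρ g * f * ρbar.ρ g⁻¹ := rfl

end Adjoint

section FpStructure

variable (p : ℕ) [Fact p.Prime] {k : Type} [Field k] [Algebra (ZMod p) k]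
  (ρbar : ResidualGaloisRep k)

/-- The `ZMod p`-module structure on `↥(End0 ρbar)` obtained from `ZMod p → k`. It is bundled into
`ad0 p ρbar`; it is NOT a global instance. -/
@[reducible] noncomputable def fpModule : Module (ZMod p) (End0 ρbar) :=
  Module.compHom (End0 ρbar) (algebraMap (ZMod p) k)

/-- `ad⁰ ρbar` with `ZMod p`-coefficients, as an object of `Rep (ZMod p) GQ`.
Its carrier is `↥(End0 ρbar)` and `(ad0 p ρbar).ρ g f = ρbar(g) f ρbar(g)⁻¹`. -/
noncomputable def ad0 : Rep.{0} (ZMod p) GQ :=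
  letI : Module (ZMod p) (End0 ρbar) := fpModule p ρbar
  Rep.of (X := End0 ρbar)
    { toFun := fun g =>
        { toFun := fun f => ad0Rep ρbar g f
          map_add' := fun f f' => map_add _ f f'
          map_smul' := fun a f => by
            show ad0Rep ρbar g (algebraMap (ZMod p) k a • f) =
              algebraMap (ZMod p) k a • ad0Rep ρbar g f
            rw [map_smul] }
      map_one' := by
        ext f : 1
        show ad0Rep ρbar 1 f = f
        rw [map_one, Module.End.one_apply]
      map_mul' := fun g h => by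
        ext f : 1
        show ad0Rep ρbar (g * h) f = ad0Rep ρbar g (ad0Rep ρbar h f)
        rw [map_mul, Module.End.mul_apply] }

/-- The carrier of `ad0 p ρbar` is `↥(End0 ρbar)` (definitionally). -/
theorem ad0_V : (ad0 p ρbar).V = End0 ρbar := rfl

/-- Read an element of `ad0 p ρbar` as an endomorphism of `ρbar.V`. -/
def ad0ToEnd (x : ad0 p ρbar) : Module.End k ρbar.V :=
  ((show End0 ρbar from x) : Module.End k ρbar.V)

theorem ad0_ρ_apply (g : GQ) (x : ad0 p ρbar) :
    ad0ToEnd p ρbar ((ad0 p ρbar).ρ g x) = ρbar.ρ g * ad0ToEnd p ρbar x * ρbar.ρ g⁻¹ := rfl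

/-- The Tate dual `ad⁰ρbar^*(1)` with `ZMod p`-coefficients. -/
noncomputable def ad0Dual : Rep.{0} (ZMod p) GQ :=
  (ad0 p ρbar).dualTwist (cycloChar p)

end FpStructure

section Lifts

variable {k : Type} [Field k] (ρbar : ResidualGaloisRep k)

/-- `c : GQ → End_k(ρbar.V)` describes the lift `ρ` of `ρbar` to the dual numbers: there are a
basis `bbar` of `ρbar.V` and a basis `b` of `ρ.V` in which
`[ρ(g)]_b = [ρbar(g)]_bbar + ε [c(g) ρbar(g)]_bbar`, i.e. `ρ(g) = (1 + ε c(g)) ρbar(g)`. -/
def IsLiftCocycle (ρ : GaloisRepAdic (DualNumber k)) (c : GQ → Module.End k ρbar.V) : Prop :=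
  ∃ (bbar : Module.Basis (Fin 2) k ρbar.V) (b : Module.Basis (Fin 2) (DualNumber k) ρ.V),
    ∀ g : GQ, LinearMap.toMatrix b b (ρ.ρ g) =
      (LinearMap.toMatrix bbar bbar (ρbar.ρ g)).map (TrivSqZeroExt.inl : k → DualNumber k) +
      (LinearMap.toMatrix bbar bbar (c g * ρbar.ρ g)).map (TrivSqZeroExt.inr : k → DualNumber k)

/-- The residual representation of `ρ` is (equivalent to) `ρbar`, in the form used by
`GaloisRep.DeformationRingData` (`baseChangeAlong` of a ring homomorphism). -/
def ResIso (ρ : GaloisRepAdic (DualNumber k)) : Prop :=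
  ρ.residual.IsEquiv (ρbar.baseChangeAlong
    ((IsLocalRing.residue (DualNumber k)).comp (algebraMap k (DualNumber k))))

/-- `TangentBound ρbar 𝒟 r`: every finite family of pairwise inequivalent lifts of `ρbar` to
`k[ε]` of type `𝒟` has at most `|k|^r` members. (Quotient-free form of `dim t_𝒟 ≤ r`.) -/
def TangentBound (𝒟 : GaloisRepAdic (DualNumber k) → Prop) (r : ℕ) : Prop :=
  ∀ (ι : Type) [Fintype ι] (ρ : ι → GaloisRepAdic (DualNumber k)),
    (∀ i, 𝒟 (ρ i) ∧ ResIso ρbar (ρ i)) → (∀ i j, (ρ i).IsEquiv (ρ j) → i = j) →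
      Fintype.card ι ≤ Nat.card k ^ r

variable (p : ℕ) [Fact p.Prime] [Algebra (ZMod p) k]

/-- `x ∈ H¹(GQ, ad0)` is the class of a cocycle describing the lift `ρ`. -/
def IsLiftClass (ρ : GaloisRepAdic (DualNumber k)) (x : H1 (ad0 p ρbar)) : Prop :=
  ∃ c : cocycles₁ (ad0 p ρbar),
    IsLiftCocycle ρbar ρ (fun g => ad0ToEnd p ρbar (c.1 g)) ∧ (H1π (ad0 p ρbar)).hom c = x

end Lifts

section Local

variable {p : ℕ}

/-- The local Galois group at the prime `q` mapping to `GQ` (Prelude `primeLocalToGlobal`). -/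
noncomputable abbrev locAt (q : Nat.Primes) : primeLocalGaloisGroup q →* GQ :=
  primeLocalToGlobal q

/-- Restriction of a global module to the local group at `q`. -/
noncomputable abbrev resAt (q : Nat.Primes) (M : Rep.{0} (ZMod p) GQ) :
    Rep.{0} (ZMod p) (primeLocalGaloisGroup q) :=
  Rep.res (locAt q) M

/-- Restriction `H¹(GQ, M) → H¹(G_q, M)`. -/
noncomputable abbrev resH1At (q : Nat.Primes) (M : Rep.{0} (ZMod p) GQ) :
    H1 M →ₗ[ZMod p] H1 (resAt q M) :=
  (groupCohomology.map (locAt q) (𝟙 (resAt q M)) 1).hom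

/-- Continuous (level-constant) local classes at `q`. -/
noncomputable abbrev H1cAt (q : Nat.Primes) (M : Rep.{0} (ZMod p) GQ) :
    Submodule (ZMod p) (H1 (resAt q M)) :=
  continuousH1 (locAt q) (resAt q M)

/-- `h⁰(ℚ_q, M)`. -/
noncomputable abbrev h0At (q : Nat.Primes) (M : Rep.{0} (ZMod p) GQ) : ℕ :=
  finrank (ZMod p) (resAt q M).ρ.invariants

end Local

end Fermat.Agent.TW.Spec.Defs52
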