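import Mathlib
import Fermat.Agent.TW.Spec.Defs52

/-!
# Program TW (S56): the contracts between the work packages (helper52, program architect)

Every `def … : Prop` below is the EXACT statement that one work package delivers
(as `theorem foo (hyps) : Contract52.Name …`). The assembly (WP9) consumes them.

Notation: `M = ad0 p ρbar`, `M' = dualOf p M = M.dualTwist (cycloChar p)`, `d = [k : 𝔽_p]`;
all dimensions are over `ZMod p`.
-/

set_option autoImplicit false

open CategoryTheory Module groupCohomology ExtCitation Polynomial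

namespace Fermat.Agent.TW.Spec.Contract52

open Fermat.Agent.TW.Spec.Defs52

/-! ## WP1: cocycle dictionary -/

section WP1

variable (p : ℕ) [Fact p.Prime] {k : Type} [Field k] [Algebra (ZMod p) k]
  (ρbar : ResidualGaloisRep k)

/-- (1.1) every lift with cyclotomic determinant has a class in `H¹(GQ, ad⁰)`. -/
def CocycleExists : Prop :=
  ∀ ρ : GaloisRepAdic (DualNumber k), ResIso ρbar ρ → ρ.DetIsCyclotomic p →
    ∃ x : H1 (ad0 p ρbar), IsLiftClass ρbar p ρ x

/-- (1.2) if the lift is unramified outside `S` its class is `S`-level-constant. -/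
def CocycleUnramified : Prop :=
  ∀ (S : Finset Nat.Primes) (ρ : GaloisRepAdic (DualNumber k)) (x : H1 (ad0 p ρbar)),
    IsLiftClass ρbar p ρ x → (∀ q : Nat.Primes, q ∉ S → ρ.IsUnramifiedAt q) →
      x ∈ continuousH1S S (ad0 p ρbar)

/-- (1.3) lifts with the same class are equivalent. -/
def CocycleInjective : Prop :=
  ∀ (ρ ρ' : GaloisRepAdic (DualNumber k)) (x : H1 (ad0 p ρbar)),
    IsLiftClass ρbar p ρ x → IsLiftClass ρbar p ρ' x → ρ.IsEquiv ρ'

end WP1

/-! ## WP5, WP6, WP7: local bounds -/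

section LocalBounds

variable (p : ℕ) [Fact p.Prime] {k : Type} [Field k] [Algebra (ZMod p) k]
  (ρbar : ResidualGaloisRep k)

/-- There is a subspace `L ≤ H¹(ℚ_q, ad⁰)` of dimension `≤ h⁰(ℚ_q, ad⁰) + δ d` containing the
local class of every lift satisfying `cond`. -/
def LocalBound (q : Nat.Primes) (cond : GaloisRepAdic (DualNumber k) → Prop) (δ : ℕ) : Prop :=
  ∃ L : Submodule (ZMod p) (H1 (resAt q (ad0 p ρbar))), FiniteDimensional (ZMod p) L ∧
    finrank (ZMod p) L ≤ h0At q (ad0 p ρbar) + δ * finrank (ZMod p) k ∧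
    ∀ (ρ : GaloisRepAdic (DualNumber k)) (x : H1 (ad0 p ρbar)),
      IsLiftClass ρbar p ρ x → cond ρ → resH1At q (ad0 p ρbar) x ∈ L

/-- WP6 delivers this (under the hypotheses of S56 on `ρbar`). -/
def LocalBoundStrictOrdinary : Prop :=
  LocalBound p ρbar (pPrime p) (fun ρ => ρ.DetIsCyclotomic p ∧ ρ.IsStrictOrdinaryAt p) 1

/-- WP7 delivers this (under the hypotheses of S56 on `ρbar`). -/
def LocalBoundFlat : Prop :=
  LocalBound p ρbar (pPrime p) (fun ρ => ρ.DetIsCyclotomic p ∧ ρ.IsFlatAt p) 1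

/-- WP5a delivers this for every prime `q ≠ p` at which `ρbar` is ramified. -/
def LocalBoundUnipotent (q : Nat.Primes) : Prop :=
  LocalBound p ρbar q (fun ρ => ρ.IsUnipotentOnInertiaAt q) 0

/-- WP5b delivers this for Taylor–Wiles primes `q` (`q ≠ p`, `ρbar` unramified at `q`,
`q ≡ 1 mod p`, distinct Frobenius eigenvalues): `dim H¹(ℚ_q, ad⁰) ≤ h⁰(ℚ_q, ad⁰) + d`. -/
def LocalBoundTW (q : Nat.Primes) : Prop :=
  FiniteDimensional (ZMod p) (H1cAt q (ad0 p ρbar)) ∧
    finrank (ZMod p) (H1cAt q (ad0 p ρbar)) ≤ h0At q (ad0 p ρbar) + finrank (ZMod p) k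

/-- The clause of S56 on Frobenius eigenvalues at `q`. -/
def DistinctFrobEigenvalues (q : ℕ) : Prop :=
  ∀ P : ValuationSubring (AlgebraicClosure ℚ), P.LiesOverPrime q →
    ∀ φ : GQ, P.IsFrobeniusAt φ q →
      ∃ α β : k, α ≠ β ∧ LinearMap.charpoly (ρbar.ρ φ) = (X - C α) * (X - C β)

/-- The archimedean place: `H¹(ℝ, ad⁰) = 0` and `h⁰(ℝ, ad⁰) ≥ d` (WP8b). -/
def ArchimedeanTerm : Prop :=
  (∀ x : H1 (Rep.res archimedeanLoc (ad0 p ρbar)), x = 0) ∧
    finrank (ZMod p) k ≤ finrank (ZMod p) (Rep.res archimedeanLoc (ad0 p ρbar)).ρ.invariants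

/-- `H⁰(GQ, ad⁰) = 0` (WP8a). -/
def GlobalInvariantsZero : Prop :=
  finrank (ZMod p) (ad0 p ρbar).ρ.invariants = 0

end LocalBounds

/-! ## WP2, WP3, WP4: the Greenberg–Wiles inequality for a general finite module -/

section GW

variable (p : ℕ) [Fact p.Prime] (S : Finset Nat.Primes) (M : Rep.{0} (ZMod p) GQ)

/-- The Tate dual `M^*(1)`. -/
noncomputable abbrev dualOf : Rep.{0} (ZMod p) GQ := M.dualTwist (cycloChar p)

/-- A family of local pairings at the places of `S ∪ {∞}` (Prelude shape). -/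
abbrev LocalPairings : Type :=
  ∀ v : extArithIndex S, H1 (Rep.res (extArithLoc S v) M) →ₗ[ZMod p]
    H1 (Rep.res (extArithLoc S v) (dualOf p M)) →ₗ[ZMod p] ZMod p

/-- A family of local pairings indexed by all primes (what WP2 constructs). -/
abbrev PrimePairings : Type :=
  ∀ q : Nat.Primes, H1 (resAt q M) →ₗ[ZMod p] H1 (resAt q (dualOf p M)) →ₗ[ZMod p] ZMod p

/-- Assemble prime-indexed pairings into the Prelude shape (zero pairing at `∞`). -/
noncomputable def assemblePairings (pa : PrimePairings p M) : LocalPairings p S M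
  | Sum.inl _ => 0
  | Sum.inr q => pa q.1

/-- WP3b: the sum of the local pairings vanishes on global `S`-classes. -/
def Reciprocity (pairing : LocalPairings p S M) : Prop :=
  ∀ x ∈ continuousH1S S M, ∀ y ∈ continuousH1S S (dualOf p M),
    ∑ v, pairing v ((locRes (extArithLoc S) M v).hom x)
      ((locRes (extArithLoc S) (dualOf p M) v).hom y) = 0

/-- WP2a: right non-degeneracy of the local pairing at the prime `q` on continuous classes. -/
def RightNondegAt (pa : PrimePairings p M) (q : Nat.Primes) : Prop :=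
  ∀ y ∈ H1cAt q (dualOf p M), (∀ x ∈ H1cAt q M, pa q x y = 0) → y = 0

/-- WP4: the base case of the Greenberg–Wiles inequality (Tate's global Euler characteristic,
the end of the nine-term sequence and S55), with the finiteness statements. -/
def BaseCase : Prop :=
  FiniteDimensional (ZMod p) (continuousH1S S M) ∧
  FiniteDimensional (ZMod p) (continuousH1S S (dualOf p M)) ∧
  finrank (ZMod p) (sha₁ S M) + finrank (ZMod p) (dualOf p M).ρ.invariants
      + ∑ v, finrank (ZMod p) (Rep.res (extArithLoc S v) M).ρ.invariants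
    ≤ finrank (ZMod p) (continuousH1S S (dualOf p M)) + finrank (ZMod p) M.ρ.invariants

/-- WP3a + WP4: the Greenberg–Wiles inequality for all finite-dimensional local conditions. -/
def GWInequality (pairing : LocalPairings p S M) : Prop :=
  ∀ L : ∀ v, Submodule (ZMod p) (H1 (Rep.res (extArithLoc S v) M)),
    (∀ v, FiniteDimensional (ZMod p) (L v)) →
      greenbergWilesLeAdm (extArithLoc S) M (dualOf p M) pairing L
        (continuousH1S S M) (continuousH1S S (dualOf p M))

/-- The hypotheses of S55 on the module `M` (finite, discrete, unramified outside `S`). -/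
structure IsSmoothUnramified : Prop where
  finite : FiniteDimensional (ZMod p) M
  smooth : ∀ m : M, ∃ F : IntermediateField ℚ (AlgebraicClosure ℚ), FiniteDimensional ℚ F ∧
    ∀ s ∈ F.fixingSubgroup, M.ρ s m = m
  unramified : ∀ q : Nat.Primes, q ∉ S → ∀ A : ValuationSubring (AlgebraicClosure ℚ),
    A.LiesOverPrime (q : ℕ) → ∀ g ∈ A.inertiaSubgroupIn ℚ, M.ρ g = 1

end GW

/-! ## WP8: Taylor–Wiles primes -/

section WP8

variable (p : ℕ) [Fact p.Prime] {k : Type} [Field k] [Algebra (ZMod p) k]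
  (ρbar : ResidualGaloisRep k)

/-- The primes in `Q` detect every class of `H¹_S(GQ, ad⁰ρbar^*(1))`. -/
def KillsDual (S Q : Finset Nat.Primes) : Prop :=
  ∀ y ∈ continuousH1S S (ad0Dual p ρbar),
    (∀ q ∈ Q, resH1At q (ad0Dual p ρbar) y = 0) → y = 0

/-- WP8 delivers this (under the hypotheses of S56 on `ρbar`, `p` odd): for every finite set `T`
of excluded primes and every `Smin ∋ p` outside which `ρbar` is unramified there is `r` such that
for every `n` there are `r` distinct Taylor–Wiles primes of level `n` outside `T` detecting all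
of `H¹_{Smin ∪ Q}(GQ, ad⁰ρbar^*(1))`. -/
def TWPrimesExist : Prop :=
  ∀ (T : Finset ℕ) (Smin : Finset Nat.Primes), pPrime p ∈ Smin →
    (∀ q ∈ Smin, (q : ℕ) ∈ T) → (∀ q : Nat.Primes, q ∉ Smin → ρbar.IsUnramifiedAt q) →
    ∃ r : ℕ, ∀ n : ℕ, ∃ qv : Fin r → Nat.Primes, Function.Injective qv ∧
      (∀ i, (qv i : ℕ) ∉ T ∧ p ^ (n + 1) ∣ (qv i : ℕ) - 1) ∧
      (∀ i, DistinctFrobEigenvalues ρbar (qv i : ℕ)) ∧
      KillsDual p ρbar (Smin ∪ Finset.univ.image qv) (Finset.univ.image qv)

end WP8

end Fermat.Agent.TW.Spec.Contract52
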