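import Mathlib
import Fermat.Agent.TW.Spec.Contract52
import Fermat.Agent.TW.Recip.Comparison94

/-!
# Program TW (S56), WP9: assembly of the contracts (helper52)

* `resH1At_mem_H1cAt`        : restriction of a `S`-level-constant class is level-constant.
* `gwInequality_of_base`     : `Reciprocity` + `BaseCase` ⇒ `GWInequality`.
* `tangentBound_of_contracts`: the contracts of `Contract52` imply `Defs52.TangentBound`.
-/

set_option autoImplicit false

open CategoryTheory Module groupCohomology ExtCitation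

namespace Fermat.Agent.TW.Spec.Assembly52

open Fermat.Agent.TW.Spec.Defs52 Fermat.Agent.TW.Spec.Contract52
open Fermat.Agent.TW.Recip.Comparison94

variable {p : ℕ} [Fact p.Prime]

/-- Restriction to the local group at `q` maps `S`-level-constant classes to level-constant
classes. -/
theorem resH1At_mem_H1cAt {S : Finset Nat.Primes} {M : Rep.{0} (ZMod p) GQ} (q : Nat.Primes)
    {x : H1 M} (hx : x ∈ continuousH1S S M) : resH1At q M x ∈ H1cAt q M := by
  obtain ⟨c, hc, rfl⟩ := (mem_continuousH1S_iff S M x).1 hx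
  rw [mem_continuousH1_iff]
  refine ⟨mapCocycles₁ (locAt q) (𝟙 (resAt q M)) c, ?_, ?_⟩
  · have h1 := hc.isLevelConstant₁
    exact IsLevelConstant₁.precomp (locAt q) (fun _ => rfl) h1
  · exact (H1π_comp_map_apply (locAt q) (𝟙 (resAt q M)) c).symm

section GW

variable (S : Finset Nat.Primes) (M : Rep.{0} (ZMod p) GQ)

/-- The Selmer group with zero local conditions inside `continuousH1S` is `sha₁`. -/
theorem selmerAdm_bot_eq_sha₁ :
    selmerAdm (extArithLoc S) M (fun _ => ⊥) (continuousH1S S M) = sha₁ S M := by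
  ext x
  rw [mem_selmerAdm_iff, sha₁, Submodule.mem_inf, LinearMap.mem_ker, and_comm]
  refine and_congr Iff.rfl ?_
  constructor
  · intro h
    funext v
    exact (Submodule.mem_bot _).mp (h v)
  · intro h v
    exact (Submodule.mem_bot _).mpr (congrFun h v)

/-- The Selmer group with full local conditions inside `adm` is `adm`. -/
theorem selmerAdm_top_eq (adm : Submodule (ZMod p) (H1 M)) :
    selmerAdm (extArithLoc S) M (fun _ => ⊤) adm = adm := by
  ext x
  rw [mem_selmerAdm_iff]
  exact ⟨fun h => h.2, fun h => ⟨fun _ => Submodule.mem_top, h⟩⟩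

/-- `Reciprocity` and `BaseCase` give the Greenberg–Wiles inequality for all finite-dimensional
local conditions. -/
theorem gwInequality_of_base (pairing : LocalPairings p S M)
    (hrec : Reciprocity p S M pairing) (hbase : BaseCase p S M) :
    GWInequality p S M pairing := by
  intro L hL
  obtain ⟨hfin, hfin', hb⟩ := hbase
  haveI : FiniteDimensional (ZMod p)
      (selmerAdm (extArithLoc S) (dualOf p M) (fun _ => ⊤) (continuousH1S S (dualOf p M))) := by
    rw [selmerAdm_top_eq]; exact hfin'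
  have h1 := selmerAdm_le_of_reciprocity (extArithLoc S) M (dualOf p M) pairing L
    (continuousH1S S M) (continuousH1S S (dualOf p M)) hrec
  rw [selmerAdm_top_eq, selmerAdm_bot_eq_sha₁] at h1
  unfold greenbergWilesLeAdm
  omega

end GW

section Main

variable {k : Type} [Field k] [Finite k] [Algebra (ZMod p) k] (ρbar : ResidualGaloisRep k)

/-- Assemble prime-indexed local conditions into the Prelude shape (zero condition at `∞`). -/
noncomputable def assembleConditions (S : Finset Nat.Primes) (M : Rep.{0} (ZMod p) GQ)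
    (Lq : ∀ q : Nat.Primes, Submodule (ZMod p) (H1 (resAt q M))) :
    ∀ v : extArithIndex S, Submodule (ZMod p) (H1 (Rep.res (extArithLoc S v) M))
  | Sum.inl _ => ⊥
  | Sum.inr q => Lq q.1

theorem sum_extArithIndex (S : Finset Nat.Primes) (f : extArithIndex S → ℕ) :
    ∑ v, f v = f (Sum.inl ()) + ∑ q : ↥S, f (Sum.inr q) := by
  have h := Fintype.sum_sum_type (α₁ := Unit) (α₂ := ↥S) f
  have h2 : ∑ a : Unit, f (Sum.inl a) = f (Sum.inl ()) := Fintype.sum_unique _
  rw [h2] at h
  exact h

/-- **WP9.** The contracts of `Contract52` give the tangent bound `|Def| ≤ |k|^{#Q}` for the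
enlarged set `S = Smin ∪ Q`. -/
theorem tangentBound_of_contracts
    (S Q : Finset Nat.Primes) (hQS : Q ⊆ S)
    (cond : GaloisRepAdic (DualNumber k) → Prop)
    (hdet : ∀ ρ, cond ρ → ρ.DetIsCyclotomic p)
    (hunr : ∀ ρ, cond ρ → ∀ q : Nat.Primes, q ∉ S → ρ.IsUnramifiedAt q)
    (hC1 : CocycleExists p ρbar) (hC2 : CocycleUnramified p ρbar)
    (hC3 : CocycleInjective p ρbar)
    (Lq : ∀ q : Nat.Primes, Submodule (ZMod p) (H1 (resAt q (ad0 p ρbar))))
    (hLfin : ∀ q ∈ S, FiniteDimensional (ZMod p) (Lq q))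
    (δ : Nat.Primes → ℕ)
    (hLdim : ∀ q ∈ S, finrank (ZMod p) (Lq q) ≤
      h0At q (ad0 p ρbar) + δ q * finrank (ZMod p) k)
    (hδ : ∑ q ∈ S, δ q ≤ Q.card + 1)
    (hLmem : ∀ (ρ : GaloisRepAdic (DualNumber k)) (x : H1 (ad0 p ρbar)),
      IsLiftClass ρbar p ρ x → cond ρ → ∀ q ∈ S, resH1At q (ad0 p ρbar) x ∈ Lq q)
    (hLQ : ∀ q ∈ Q, H1cAt q (ad0 p ρbar) ≤ Lq q)
    (harch : ArchimedeanTerm p ρbar) (hglob : GlobalInvariantsZero p ρbar)
    (pa : PrimePairings p (ad0 p ρbar))
    (hGW : GWInequality p S (ad0 p ρbar) (assemblePairings p S (ad0 p ρbar) pa))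
    (hfin : FiniteDimensional (ZMod p) (continuousH1S S (ad0 p ρbar)))
    (hnd : ∀ q ∈ Q, RightNondegAt p (ad0 p ρbar) pa q)
    (hkill : KillsDual p ρbar S Q) :
    TangentBound ρbar cond Q.card := by
  classical
  intro ι _ ρ hρ hinj
  -- classes of the lifts
  have hx : ∀ i, ∃ x, IsLiftClass ρbar p (ρ i) x :=
    fun i => hC1 (ρ i) (hρ i).2 (hdet _ (hρ i).1)
  choose x hx using hx
  -- the local conditions
  have hLfinv : ∀ v, FiniteDimensional (ZMod p) (assembleConditions S (ad0 p ρbar) Lq v) := by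
    rintro (_ | ⟨q, hq⟩)
    · show FiniteDimensional (ZMod p)
        (⊥ : Submodule (ZMod p) (H1 (Rep.res (extArithLoc S (Sum.inl ())) (ad0 p ρbar))))
      infer_instance
    · exact hLfin q hq
  -- membership in the Selmer group
  have hmem : ∀ i, x i ∈ selmerAdm (extArithLoc S) (ad0 p ρbar)
      (assembleConditions S (ad0 p ρbar) Lq) (continuousH1S S (ad0 p ρbar)) := by
    intro i
    rw [mem_selmerAdm_iff]
    refine ⟨?_, hC2 S (ρ i) (x i) (hx i) (hunr _ (hρ i).1)⟩
    rintro (_ | ⟨q, hq⟩)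
    · exact (Submodule.mem_bot _).mpr (harch.1 _)
    · exact hLmem (ρ i) (x i) (hx i) (hρ i).1 q hq
  have hxinj : Function.Injective (fun i => (⟨x i, hmem i⟩ :
      selmerAdm (extArithLoc S) (ad0 p ρbar)
        (assembleConditions S (ad0 p ρbar) Lq) (continuousH1S S (ad0 p ρbar)))) := by
    intro i j h
    have hij : x i = x j := congrArg Subtype.val h
    exact hinj i j (hC3 (ρ i) (ρ j) (x i) (hx i) (hij ▸ hx j))
  -- the dual Selmer group vanishes
  have hdual : selmerAdm (extArithLoc S) (dualOf p (ad0 p ρbar))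
      (dualConditions (extArithLoc S) (ad0 p ρbar) (dualOf p (ad0 p ρbar))
        (assemblePairings p S (ad0 p ρbar) pa) (assembleConditions S (ad0 p ρbar) Lq))
      (continuousH1S S (dualOf p (ad0 p ρbar))) = ⊥ := by
    rw [eq_bot_iff]
    intro y hy
    rw [mem_selmerAdm_iff] at hy
    obtain ⟨hy1, hy2⟩ := hy
    refine (Submodule.mem_bot _).mpr (hkill y hy2 fun q hq => ?_)
    have h1 := hy1 (Sum.inr ⟨q, hQS hq⟩)
    refine hnd q hq _ (resH1At_mem_H1cAt q hy2) fun z hz => ?_
    exact (mem_orthogonal_iff _ _ _).mp h1 z (hLQ q hq hz)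
  -- the Greenberg–Wiles inequality
  have hgw := hGW (assembleConditions S (ad0 p ρbar) Lq) hLfinv
  unfold greenbergWilesLeAdm at hgw
  rw [hdual, finrank_bot, hglob, sum_extArithIndex, sum_extArithIndex] at hgw
  have hbotL : finrank (ZMod p) (assembleConditions S (ad0 p ρbar) Lq (Sum.inl ())) = 0 :=
    finrank_bot _ _
  have hsumL : ∑ q : ↥S, finrank (ZMod p) (assembleConditions S (ad0 p ρbar) Lq (Sum.inr q)) ≤
      ∑ q : ↥S, (h0At q.1 (ad0 p ρbar) + δ q.1 * finrank (ZMod p) k) :=
    Finset.sum_le_sum fun q _ => hLdim q.1 q.2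
  have hsumδ : ∑ q : ↥S, δ q.1 * finrank (ZMod p) k =
      (∑ q ∈ S, δ q) * finrank (ZMod p) k := by
    rw [Finset.sum_mul, ← Finset.sum_coe_sort S (fun q => δ q * finrank (ZMod p) k)]
  rw [Finset.sum_add_distrib, hsumδ] at hsumL
  have hδ' : (∑ q ∈ S, δ q) * finrank (ZMod p) k ≤ (Q.card + 1) * finrank (ZMod p) k :=
    Nat.mul_le_mul_right _ hδ
  have harch2 := harch.2
  have hsel : finrank (ZMod p) (selmerAdm (extArithLoc S) (ad0 p ρbar)
      (assembleConditions S (ad0 p ρbar) Lq) (continuousH1S S (ad0 p ρbar))) ≤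
      Q.card * finrank (ZMod p) k := by
    have hh : ∑ q : ↥S, finrank (ZMod p)
        (Rep.res (extArithLoc S (Sum.inr q)) (ad0 p ρbar)).ρ.invariants =
        ∑ q : ↥S, h0At q.1 (ad0 p ρbar) := rfl
    rw [hh] at hgw
    have harch3 : finrank (ZMod p) k ≤ finrank (ZMod p)
        (Rep.res (extArithLoc S (Sum.inl ())) (ad0 p ρbar)).ρ.invariants := harch2
    rw [add_mul, one_mul] at hδ'
    omega
  -- counting
  haveI := hfin
  haveI : Finite (selmerAdm (extArithLoc S) (ad0 p ρbar)
      (assembleConditions S (ad0 p ρbar) Lq) (continuousH1S S (ad0 p ρbar))) :=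
    Module.finite_of_finite (ZMod p)
  have hcard := Nat.card_le_card_of_injective _ hxinj
  rw [Nat.card_eq_fintype_card, Module.natCard_eq_pow_finrank (K := ZMod p), Nat.card_zmod]
    at hcard
  refine hcard.trans ?_
  rw [Module.natCard_eq_pow_finrank (K := ZMod p) (V := k), Nat.card_zmod, ← pow_mul, mul_comm]
  exact Nat.pow_le_pow_right (Fact.out : p.Prime).pos hsel

end Main

end Fermat.Agent.TW.Spec.Assembly52
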