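import Mathlib
import Fermat.Agent.TW.Spec.Assembly52
import Fermat.Agent.TW.Cocycle.Contract95

/-!
# Program TW (S56), WP9: the tangent bound from the deliverables (helper52)

`tangentBound_of_deliverables` : the local bounds (WP5, WP6/WP7), the archimedean and global
invariants (WP8a/b), the pairings with reciprocity, right non-degeneracy and base case
(WP2/3/4), and a killing set `Q` of Taylor–Wiles primes (WP8) give
`Defs52.TangentBound ρbar cond Q.card` for the deformation condition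
`cond = (condition at p) ∧ (unramified outside Smin ∪ Q) ∧ (unipotent inertia on Smin ∖ p)`.
WP1 is consumed from `Cocycle/Contract95` (helper95).
-/

set_option autoImplicit false

open CategoryTheory Module groupCohomology ExtCitation

namespace Fermat.Agent.TW.Spec.Final52

open Fermat.Agent.TW.Spec.Defs52 Fermat.Agent.TW.Spec.Contract52
open Fermat.Agent.TW.Spec.Assembly52 Fermat.Agent.TW.Cocycle.Contract95

variable {p : ℕ} [Fact p.Prime] {k : Type} [Field k] [Finite k] [Algebra (ZMod p) k]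
  (ρbar : ResidualGaloisRep k)

/-- **WP9, final form.** -/
theorem tangentBound_of_deliverables
    (Smin Q : Finset Nat.Primes) (hpS : pPrime p ∈ Smin) (hdisj : Disjoint Smin Q)
    (condp : GaloisRepAdic (DualNumber k) → Prop)
    (hdetp : ∀ ρ, condp ρ → ρ.DetIsCyclotomic p)
    (hP : LocalBound p ρbar (pPrime p) condp 1)
    (hU : ∀ q ∈ Smin, q ≠ pPrime p → LocalBoundUnipotent p ρbar q)
    (hTWl : ∀ q ∈ Q, LocalBoundTW p ρbar q)
    (harch : ArchimedeanTerm p ρbar) (hglob : GlobalInvariantsZero p ρbar)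
    (pa : PrimePairings p (ad0 p ρbar))
    (hrec : Reciprocity p (Smin ∪ Q) (ad0 p ρbar)
      (assemblePairings p (Smin ∪ Q) (ad0 p ρbar) pa))
    (hbase : BaseCase p (Smin ∪ Q) (ad0 p ρbar))
    (hnd : ∀ q ∈ Q, RightNondegAt p (ad0 p ρbar) pa q)
    (hkill : KillsDual p ρbar (Smin ∪ Q) Q) :
    TangentBound ρbar (fun ρ => condp ρ ∧
      (∀ q : Nat.Primes, q ∉ Smin ∪ Q → ρ.IsUnramifiedAt q) ∧
      (∀ q ∈ Smin, q ≠ pPrime p → ρ.IsUnipotentOnInertiaAt q)) Q.card := by
  classical
  obtain ⟨Lp, hLpfin, hLpdim, hLpmem⟩ := hP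
  have hUc : ∀ q : Nat.Primes, ∃ L : Submodule (ZMod p) (H1 (resAt q (ad0 p ρbar))),
      (q ∈ Smin → q ≠ pPrime p →
        FiniteDimensional (ZMod p) L ∧
        finrank (ZMod p) L ≤ h0At q (ad0 p ρbar) + 0 * finrank (ZMod p) k ∧
        ∀ (ρ : GaloisRepAdic (DualNumber k)) (x : H1 (ad0 p ρbar)),
          IsLiftClass ρbar p ρ x → ρ.IsUnipotentOnInertiaAt q →
            resH1At q (ad0 p ρbar) x ∈ L) := by
    intro q
    by_cases h1 : q ∈ Smin ∧ q ≠ pPrime p
    · obtain ⟨L, hL1, hL2, hL3⟩ := hU q h1.1 h1.2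
      exact ⟨L, fun _ _ => ⟨hL1, hL2, hL3⟩⟩
    · exact ⟨⊥, fun h2 h3 => absurd ⟨h2, h3⟩ h1⟩
  choose LU hLU using hUc
  -- the local conditions
  let Lq : ∀ q : Nat.Primes, Submodule (ZMod p) (H1 (resAt q (ad0 p ρbar))) := fun q =>
    if h : q = pPrime p then h ▸ Lp
    else if q ∈ Smin then LU q else H1cAt q (ad0 p ρbar)
  have hLq_p : Lq (pPrime p) = Lp := by
    simp only [Lq, dif_pos]
  have hLq_S : ∀ q ∈ Smin, q ≠ pPrime p → Lq q = LU q := by
    intro q hq hqp
    simp only [Lq, dif_neg hqp, if_pos hq]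
  have hLq_Q : ∀ q ∈ Q, Lq q = H1cAt q (ad0 p ρbar) := by
    intro q hq
    have hqS : q ∉ Smin := fun h => (Finset.disjoint_left.mp hdisj h) hq
    have hqp : q ≠ pPrime p := fun h => hqS (h ▸ hpS)
    simp only [Lq, dif_neg hqp, if_neg hqS]
  let δ : Nat.Primes → ℕ := fun q => if q = pPrime p then 1 else if q ∈ Smin then 0 else 1
  have hδp : δ (pPrime p) = 1 := by simp only [δ, if_pos]
  have hδS : ∀ q ∈ Smin, q ≠ pPrime p → δ q = 0 := by
    intro q hq hqp
    simp only [δ, if_neg hqp, if_pos hq]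
  have hδQ : ∀ q ∈ Q, δ q = 1 := by
    intro q hq
    have hqS : q ∉ Smin := fun h => (Finset.disjoint_left.mp hdisj h) hq
    have hqp : q ≠ pPrime p := fun h => hqS (h ▸ hpS)
    simp only [δ, if_neg hqp, if_neg hqS]
  have hC2 := cocycleUnramified p ρbar
  refine tangentBound_of_contracts ρbar (Smin ∪ Q) Q Finset.subset_union_right _
    (fun ρ h => hdetp ρ h.1) (fun ρ h => h.2.1)
    (cocycleExists p ρbar) hC2 (cocycleInjective p ρbar) Lq ?_ δ ?_ ?_ ?_ ?_
    harch hglob pa (gwInequality_of_base (Smin ∪ Q) (ad0 p ρbar) _ hrec hbase) hbase.1 hnd hkill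
  · -- finiteness
    intro q hq
    by_cases hqp : q = pPrime p
    · subst hqp; rw [hLq_p]; exact hLpfin
    · rcases Finset.mem_union.mp hq with h | h
      · rw [hLq_S q h hqp]; exact (hLU q h hqp).1
      · rw [hLq_Q q h]; exact (hTWl q h).1
  · -- dimensions
    intro q hq
    by_cases hqp : q = pPrime p
    · subst hqp; rw [hLq_p, hδp]; exact hLpdim
    · rcases Finset.mem_union.mp hq with h | h
      · rw [hLq_S q h hqp, hδS q h hqp]; exact (hLU q h hqp).2.1
      · rw [hLq_Q q h, hδQ q h, one_mul]; exact (hTWl q h).2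
  · -- the sum of the δ's
    rw [Finset.sum_union hdisj]
    have h1 : ∑ q ∈ Smin, δ q = 1 := by
      rw [Finset.sum_eq_single_of_mem (pPrime p) hpS (fun q hq hqp => hδS q hq hqp), hδp]
    have h2 : ∑ q ∈ Q, δ q = Q.card := by
      rw [Finset.sum_congr rfl hδQ, Finset.sum_const, smul_eq_mul, mul_one]
    omega
  · -- membership
    intro ρ x hx hcond q hq
    by_cases hqp : q = pPrime p
    · subst hqp; rw [hLq_p]; exact hLpmem ρ x hx hcond.1
    · rcases Finset.mem_union.mp hq with h | h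
      · rw [hLq_S q h hqp]; exact (hLU q h hqp).2.2 ρ x hx (hcond.2.2 q h hqp)
      · rw [hLq_Q q h]
        exact resH1At_mem_H1cAt q (hC2 (Smin ∪ Q) ρ x hx hcond.2.1)
  · -- full condition at `Q`
    intro q hq
    rw [hLq_Q q hq]

end Fermat.Agent.TW.Spec.Final52
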