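import Mathlib
import Fermat.Agent.TW.Spec.Glue52

/-!
# Program TW (S56): the statement of S56 from the deliverables, version b (helper52)

Same as `Glue52`, except that the local pairings may depend on the set `S'` of primes
(field `pairings` of `DeliverablesB`): this is the shape in which WP2/WP3 produce them
(`tatePairingAt … lam` with scalars `lam` depending on `S'`).

`s56_of_deliverablesB` has LITERALLY the conclusion of S56; its hypotheses are the S56 binders that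
the glue needs, an instance `[Algebra (ZMod p) k]` (`k = ResidueField 𝒪`; in `S56.lean` it is
`ZMod.algebra` from `CharP k p`), and the deliverables of WP2–WP8 (`Contract52`).
WP0 (helper81, `TangentBoundSpec81`) and WP1 (helper95, `Contract95`) are already consumed.
-/

set_option autoImplicit false

open CategoryTheory Module groupCohomology ExtCitation Polynomial IsLocalRing

namespace Fermat.Agent.TW.Spec.Glue52b

open Fermat.Agent.TW.Spec.Defs52 Fermat.Agent.TW.Spec.Contract52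
open Fermat.Agent.TW.Spec.Final52 Fermat.Agent.TW.Reduction Fermat.Agent.TW.Spec.Glue52

section Primes

variable (p : ℕ) [Fact p.Prime] {k : Type} [Field k] [Finite k] [Algebra (ZMod p) k]
  (ρbar : ResidualGaloisRep k)

/-- The deliverables of WP2–WP8 for the residual representation `ρbar` and the minimal set
`Smin` (as a set of natural numbers, as in S56). -/
structure DeliverablesB (Smin : Finset ℕ) : Prop where
  /-- WP5a -/
  unipotent : ∀ q : Nat.Primes, (q : ℕ) ∈ Smin → (q : ℕ) ≠ p → LocalBoundUnipotent p ρbar q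
  /-- WP5b -/
  twLocal : ∀ q : Nat.Primes, (q : ℕ) ∉ Smin → p ∣ (q : ℕ) - 1 →
    DistinctFrobEigenvalues ρbar (q : ℕ) → LocalBoundTW p ρbar q
  /-- WP8b -/
  arch : ArchimedeanTerm p ρbar
  /-- WP8a -/
  glob : GlobalInvariantsZero p ρbar
  /-- WP8 -/
  twPrimes : TWPrimesExist p ρbar
  /-- WP2 + WP3 -/
  pairings : ∀ S' : Finset Nat.Primes, pPrime p ∈ S' →
    (∀ q : Nat.Primes, q ∉ S' → ρbar.IsUnramifiedAt q) →
      ∃ pa : PrimePairings p (ad0 p ρbar),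
        Reciprocity p S' (ad0 p ρbar) (assemblePairings p S' (ad0 p ρbar) pa) ∧
        ∀ q ∈ S', (q : ℕ) ∉ Smin → p ∣ (q : ℕ) - 1 →
          DistinctFrobEigenvalues ρbar (q : ℕ) → RightNondegAt p (ad0 p ρbar) pa q
  /-- WP4 -/
  base : ∀ S' : Finset Nat.Primes, pPrime p ∈ S' →
    (∀ q : Nat.Primes, q ∉ S' → ρbar.IsUnramifiedAt q) → BaseCase p S' (ad0 p ρbar)

/-- Taylor–Wiles primes with the tangent bound, in the shape of S56 (sets of natural numbers). -/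
theorem exists_primes_tangentBoundB
    (S Smin : Finset ℕ) (hpSmin : p ∈ Smin) (hSmin : Smin ⊆ S)
    (hmin : ∀ q : ℕ, q.Prime → q ≠ p → (q ∈ Smin ↔ ¬ ρbar.IsUnramifiedAt q))
    (hD : DeliverablesB p ρbar Smin)
    (condp : GaloisRepAdic (DualNumber k) → Prop)
    (hdetp : ∀ ρ, condp ρ → ρ.DetIsCyclotomic p)
    (hP : LocalBound p ρbar (pPrime p) condp 1) :
    ∃ r : ℕ, ∀ n : ℕ, ∃ qv : Fin r → ℕ, Function.Injective qv ∧
      (∀ i, (qv i).Prime ∧ qv i ∉ S ∧ p ^ (n + 1) ∣ qv i - 1) ∧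
      (∀ i, ∀ P : ValuationSubring (AlgebraicClosure ℚ), P.LiesOverPrime (qv i) →
        ∀ φ : AlgebraicClosure ℚ ≃ₐ[ℚ] AlgebraicClosure ℚ, P.IsFrobeniusAt φ (qv i) →
          ∃ α β : k, α ≠ β ∧ LinearMap.charpoly (ρbar.ρ φ) = (X - C α) * (X - C β)) ∧
      TangentBound ρbar (fun ρ => condp ρ ∧
        (∀ q : ℕ, q.Prime → q ∉ Smin ∪ Finset.univ.image qv → ρ.IsUnramifiedAt q) ∧
        (∀ q ∈ Smin, q.Prime → q ≠ p → ρ.IsUnipotentOnInertiaAt q)) r := by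
  classical
  let SminP : Finset Nat.Primes := Smin.subtype Nat.Prime
  have hmemP : ∀ q : Nat.Primes, q ∈ SminP ↔ (q : ℕ) ∈ Smin := fun q => Finset.mem_subtype
  have hpP : pPrime p ∈ SminP := (hmemP _).mpr hpSmin
  have hunr : ∀ q : Nat.Primes, q ∉ SminP → ρbar.IsUnramifiedAt q := by
    intro q hq
    have hq' : (q : ℕ) ∉ Smin := fun h => hq ((hmemP q).mpr h)
    have hqp : (q : ℕ) ≠ p := fun h => hq' (h ▸ hpSmin)
    by_contra hram
    exact hq' ((hmin q q.2 hqp).mpr hram)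
  obtain ⟨r, hr⟩ := hD.twPrimes S SminP hpP (fun q hq => hSmin ((hmemP q).mp hq)) hunr
  refine ⟨r, fun n => ?_⟩
  obtain ⟨qv, hinj, hqv, hfrob, hkill⟩ := hr n
  have hqvS : ∀ i, (qv i : ℕ) ∉ Smin := fun i h => (hqv i).1 (hSmin h)
  have hqvp : ∀ i, p ∣ (qv i : ℕ) - 1 := fun i =>
    dvd_trans (dvd_pow_self p (Nat.succ_ne_zero n)) (hqv i).2
  refine ⟨fun i => (qv i : ℕ), Subtype.val_injective.comp hinj,
    fun i => ⟨(qv i).2, (hqv i).1, (hqv i).2⟩, fun i => hfrob i, ?_⟩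
  set Q : Finset Nat.Primes := Finset.univ.image qv with hQ
  have hQmem : ∀ q : Nat.Primes, q ∈ Q ↔ ∃ i, qv i = q := by
    intro q
    simp only [hQ, Finset.mem_image, Finset.mem_univ, true_and]
  have hcard : Q.card = r := by
    rw [hQ, Finset.card_image_of_injective _ hinj, Finset.card_univ, Fintype.card_fin]
  have hdisj : Disjoint SminP Q := by
    rw [Finset.disjoint_left]
    intro q hq hqQ
    obtain ⟨i, rfl⟩ := (hQmem q).mp hqQ
    exact hqvS i ((hmemP _).mp hq)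
  have hunrQ : ∀ q : Nat.Primes, q ∉ SminP ∪ Q → ρbar.IsUnramifiedAt q := fun q hq =>
    hunr q fun h => hq (Finset.mem_union_left _ h)
  have hpPQ : pPrime p ∈ SminP ∪ Q := Finset.mem_union_left _ hpP
  obtain ⟨pa, hrec, hnd⟩ := hD.pairings _ hpPQ hunrQ
  have hT := tangentBound_of_deliverables ρbar SminP Q hpP hdisj condp hdetp hP
    (fun q hq hqp => hD.unipotent q ((hmemP q).mp hq) fun h => hqp (Subtype.ext h))
    (fun q hq => by
      obtain ⟨i, rfl⟩ := (hQmem q).mp hq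
      exact hD.twLocal (qv i) (hqvS i) (hqvp i) (hfrob i))
    hD.arch hD.glob pa hrec (hD.base _ hpPQ hunrQ)
    (fun q hq => by
      obtain ⟨i, rfl⟩ := (hQmem q).mp hq
      exact hnd (qv i) (Finset.mem_union_right _ hq) (hqvS i) (hqvp i) (hfrob i))
    hkill
  rw [hcard] at hT
  refine tangentBound_mono ρbar ?_ hT
  rintro ρ ⟨h1, h2, h3⟩
  refine ⟨h1, fun q hq => h2 q q.2 fun h => hq ?_, fun q hq hqp =>
    h3 q ((hmemP q).mp hq) q.2 fun h => hqp (Subtype.ext h)⟩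
  rcases Finset.mem_union.mp h with h | h
  · exact Finset.mem_union_left _ ((hmemP q).mpr h)
  · obtain ⟨i, -, hi⟩ := Finset.mem_image.mp h
    exact Finset.mem_union_right _ ((hQmem q).mpr ⟨i, Subtype.ext hi⟩)

end Primes

section S56

variable {𝒪 : Type} [CommRing 𝒪] [IsDomain 𝒪] [IsDiscreteValuationRing 𝒪]
  [IsAdicComplete (maximalIdeal 𝒪) 𝒪] [Finite (ResidueField 𝒪)]

/-- **S56 from the deliverables.** The conclusion is literally the conclusion of S56. -/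
theorem s56_of_deliverablesB
    (p : ℕ) [Fact p.Prime] (hp2 : p ≠ 2) (hp𝒪 : (p : 𝒪) ∈ maximalIdeal 𝒪)
    [Algebra (ZMod p) (ResidueField 𝒪)]
    (ρbar : ResidualGaloisRep (ResidueField 𝒪))
    (S Smin : Finset ℕ) (hpSmin : p ∈ Smin) (hSmin : Smin ⊆ S)
    (hmin : ∀ q : ℕ, q.Prime → q ≠ p → (q ∈ Smin ↔ ¬ ρbar.IsUnramifiedAt q))
    (hD : DeliverablesB p ρbar Smin)
    (hSO : LocalBoundStrictOrdinary p ρbar) (hFL : LocalBoundFlat p ρbar) :
    (∃ r : ℕ, ∀ n : ℕ, ∃ qv : Fin r → ℕ, Function.Injective qv ∧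
      (∀ i, (qv i).Prime ∧ qv i ∉ S ∧ p ^ (n + 1) ∣ qv i - 1) ∧
      (∀ i, ∀ P : ValuationSubring (AlgebraicClosure ℚ), P.LiesOverPrime (qv i) →
        ∀ φ : AlgebraicClosure ℚ ≃ₐ[ℚ] AlgebraicClosure ℚ, P.IsFrobeniusAt φ (qv i) →
          ∃ α β : ResidueField 𝒪, α ≠ β ∧ LinearMap.charpoly (ρbar.ρ φ) = (X - C α) * (X - C β)) ∧
      ∀ DQ : GaloisRep.DeformationRingData 𝒪 ρbar (fun _A _ _ _ ρ =>
          GaloisRep.strictOrdinaryCondition 𝒪 p (Smin ∪ Finset.univ.image qv) ρ ∧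
            ∀ q ∈ Smin, q.Prime → q ≠ p → ρ.IsUnipotentOnInertiaAt q),
        ∃ γ : MvPowerSeries (Fin r) 𝒪 →ₐ[𝒪] DQ.R, Function.Surjective γ) ∧
    (∃ r : ℕ, ∀ n : ℕ, ∃ qv : Fin r → ℕ, Function.Injective qv ∧
      (∀ i, (qv i).Prime ∧ qv i ∉ S ∧ p ^ (n + 1) ∣ qv i - 1) ∧
      (∀ i, ∀ P : ValuationSubring (AlgebraicClosure ℚ), P.LiesOverPrime (qv i) →
        ∀ φ : AlgebraicClosure ℚ ≃ₐ[ℚ] AlgebraicClosure ℚ, P.IsFrobeniusAt φ (qv i) →
          ∃ α β : ResidueField 𝒪, α ≠ β ∧ LinearMap.charpoly (ρbar.ρ φ) = (X - C α) * (X - C β)) ∧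
      ∀ DQ : GaloisRep.DeformationRingData 𝒪 ρbar (fun _A _ _ _ ρ =>
          GaloisRep.flatCondition 𝒪 p (Smin ∪ Finset.univ.image qv) ρ ∧
            ∀ q ∈ Smin, q.Prime → q ≠ p → ρ.IsUnipotentOnInertiaAt q),
        ∃ γ : MvPowerSeries (Fin r) 𝒪 →ₐ[𝒪] DQ.R, Function.Surjective γ) := by
  have hq3 := TangentBound81.three_le_card_residueField (𝒪 := 𝒪) p hp2 hp𝒪
  constructor
  · obtain ⟨r, hr⟩ := exists_primes_tangentBoundB p ρbar S Smin hpSmin hSmin hmin hD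
      (fun ρ => ρ.DetIsCyclotomic p ∧ ρ.IsStrictOrdinaryAt p) (fun _ h => h.1) hSO
    refine ⟨r, fun n => ?_⟩
    obtain ⟨qv, h1, h2, h3, hT⟩ := hr n
    refine ⟨qv, h1, h2, h3, fun DQ => ?_⟩
    refine TangentBoundSpec81.exists_surjective_strictOrdinary p _ Smin DQ r hq3 ?_
    refine tangentBound_mono ρbar ?_ hT
    rintro ρ ⟨⟨h1, h2, h3⟩, h4⟩
    exact ⟨⟨h1, h2⟩, h3, h4⟩
  · obtain ⟨r, hr⟩ := exists_primes_tangentBoundB p ρbar S Smin hpSmin hSmin hmin hD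
      (fun ρ => ρ.DetIsCyclotomic p ∧ ρ.IsFlatAt p) (fun _ h => h.1) hFL
    refine ⟨r, fun n => ?_⟩
    obtain ⟨qv, h1, h2, h3, hT⟩ := hr n
    refine ⟨qv, h1, h2, h3, fun DQ => ?_⟩
    refine TangentBoundSpec81.exists_surjective_flat p _ Smin DQ r hq3 ?_
    refine tangentBound_mono ρbar ?_ hT
    rintro ρ ⟨⟨h1, h2, h3⟩, h4⟩
    exact ⟨⟨h1, h2⟩, h3, h4⟩

omit [IsDomain 𝒪] [IsDiscreteValuationRing 𝒪] [IsAdicComplete (maximalIdeal 𝒪) 𝒪]
  [Finite (ResidueField 𝒪)] in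
/-- The residue field has characteristic `p`. -/
theorem charP_residueField [IsLocalRing 𝒪] (p : ℕ) [Fact p.Prime]
    (hp𝒪 : (p : 𝒪) ∈ maximalIdeal 𝒪) : CharP (ResidueField 𝒪) p := by
  have hp0 : ((p : ℕ) : ResidueField 𝒪) = 0 := by
    rw [← map_natCast (residue 𝒪)]
    exact (residue_eq_zero_iff _).mpr hp𝒪
  obtain ⟨q, hq⟩ := CharP.exists (ResidueField 𝒪)
  have hdvd : q ∣ p := (CharP.cast_eq_zero_iff (ResidueField 𝒪) q p).mp hp0
  rcases (Nat.dvd_prime (Fact.out : p.Prime)).mp hdvd with h | h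
  · subst h
    exact absurd rfl (@CharP.char_ne_one (ResidueField 𝒪) _ _ 1 hq)
  · exact h ▸ hq

/-- **S56 from the deliverables, with the `ZMod p`-algebra structure of `S56.lean`.** -/
theorem s56_of_deliverables_zmod
    (p : ℕ) [Fact p.Prime] (hp2 : p ≠ 2) (hp𝒪 : (p : 𝒪) ∈ maximalIdeal 𝒪)
    (ρbar : ResidualGaloisRep (ResidueField 𝒪))
    (S Smin : Finset ℕ) (hpSmin : p ∈ Smin) (hSmin : Smin ⊆ S)
    (hmin : ∀ q : ℕ, q.Prime → q ≠ p → (q ∈ Smin ↔ ¬ ρbar.IsUnramifiedAt q))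
    (hD : ∀ _ : Algebra (ZMod p) (ResidueField 𝒪), DeliverablesB p ρbar Smin ∧
      LocalBoundStrictOrdinary p ρbar ∧ LocalBoundFlat p ρbar) :
    (∃ r : ℕ, ∀ n : ℕ, ∃ qv : Fin r → ℕ, Function.Injective qv ∧
      (∀ i, (qv i).Prime ∧ qv i ∉ S ∧ p ^ (n + 1) ∣ qv i - 1) ∧
      (∀ i, ∀ P : ValuationSubring (AlgebraicClosure ℚ), P.LiesOverPrime (qv i) →
        ∀ φ : AlgebraicClosure ℚ ≃ₐ[ℚ] AlgebraicClosure ℚ, P.IsFrobeniusAt φ (qv i) →
          ∃ α β : ResidueField 𝒪, α ≠ β ∧ LinearMap.charpoly (ρbar.ρ φ) = (X - C α) * (X - C β)) ∧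
      ∀ DQ : GaloisRep.DeformationRingData 𝒪 ρbar (fun _A _ _ _ ρ =>
          GaloisRep.strictOrdinaryCondition 𝒪 p (Smin ∪ Finset.univ.image qv) ρ ∧
            ∀ q ∈ Smin, q.Prime → q ≠ p → ρ.IsUnipotentOnInertiaAt q),
        ∃ γ : MvPowerSeries (Fin r) 𝒪 →ₐ[𝒪] DQ.R, Function.Surjective γ) ∧
    (∃ r : ℕ, ∀ n : ℕ, ∃ qv : Fin r → ℕ, Function.Injective qv ∧
      (∀ i, (qv i).Prime ∧ qv i ∉ S ∧ p ^ (n + 1) ∣ qv i - 1) ∧
      (∀ i, ∀ P : ValuationSubring (AlgebraicClosure ℚ), P.LiesOverPrime (qv i) →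
        ∀ φ : AlgebraicClosure ℚ ≃ₐ[ℚ] AlgebraicClosure ℚ, P.IsFrobeniusAt φ (qv i) →
          ∃ α β : ResidueField 𝒪, α ≠ β ∧ LinearMap.charpoly (ρbar.ρ φ) = (X - C α) * (X - C β)) ∧
      ∀ DQ : GaloisRep.DeformationRingData 𝒪 ρbar (fun _A _ _ _ ρ =>
          GaloisRep.flatCondition 𝒪 p (Smin ∪ Finset.univ.image qv) ρ ∧
            ∀ q ∈ Smin, q.Prime → q ≠ p → ρ.IsUnipotentOnInertiaAt q),
        ∃ γ : MvPowerSeries (Fin r) 𝒪 →ₐ[𝒪] DQ.R, Function.Surjective γ) := by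
  haveI : CharP (ResidueField 𝒪) p := charP_residueField p hp𝒪
  letI : Algebra (ZMod p) (ResidueField 𝒪) := ZMod.algebra (ResidueField 𝒪) p
  obtain ⟨h1, h2, h3⟩ := hD inferInstance
  exact s56_of_deliverablesB p hp2 hp𝒪 ρbar S Smin hpSmin hSmin hmin h1 h2 h3

end S56

end Fermat.Agent.TW.Spec.Glue52b
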