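import Mathlib
import Fermat.Agent.TW.Spec.Glue52b
import Fermat.Agent.TW.Primes.Greedy52
import Fermat.Agent.TW.Primes.FinH1S52
import Fermat.Agent.TW.Primes.ArchGlob89
import Fermat.Agent.TW.Cocycle.SmoothEnd95
import Fermat.Agent.TW.LocP.StrictOrdBound89

/-!
# Program TW (S56): S56 from the contracts that are still OPEN (helper52)

All closed work packages are plugged in here:
WP0 (helper81), WP1 (helper95), WP6 (helper89, `localBoundStrictOrdinary`),
WP8a/WP8b (helper89, `globalInvariantsZero`, `archimedeanTerm`),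
the smoothness of `ad⁰`, `ad⁰^*(1)` (helper95), finiteness of `H¹_S` (PT), the greedy choice of
Taylor–Wiles primes and the inertia lemma (helper52), WP9 (helper52).

`OpenContracts p ρbar Smin` lists exactly what remains (WP2+3, WP4, WP5a, WP5b, WP7, WP8-detection);
`s56_of_openContracts` has literally the conclusion of S56.
-/

set_option autoImplicit false

open CategoryTheory Module groupCohomology ExtCitation Polynomial IsLocalRing

namespace Fermat.Agent.TW.Spec.Status52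

open Fermat.Agent.TW.Spec.Defs52 Fermat.Agent.TW.Spec.Contract52
open Fermat.Agent.TW.Spec.Glue52b Fermat.Agent.TW.Primes.Greedy52

section Contracts

variable (p : ℕ) [Fact p.Prime] {k : Type} [Field k] [Algebra (ZMod p) k]

/-- WP4, the inequality part of `BaseCase` (the finiteness parts are known). -/
def BaseInequality (S : Finset Nat.Primes) (M : Rep.{0} (ZMod p) GQ) : Prop :=
  finrank (ZMod p) (sha₁ S M) + finrank (ZMod p) (dualOf p M).ρ.invariants
      + ∑ v, finrank (ZMod p) (Rep.res (extArithLoc S v) M).ρ.invariants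
    ≤ finrank (ZMod p) (continuousH1S S (dualOf p M)) + finrank (ZMod p) M.ρ.invariants

theorem baseCase_of_baseInequality (S : Finset Nat.Primes) (hpS : pPrime p ∈ S)
    (M : Rep.{0} (ZMod p) GQ) (hM : IsSmoothUnramified p S M) (h : BaseInequality p S M) :
    BaseCase p S M :=
  ⟨Fermat.Agent.TW.Primes.FinH1S52.finiteDimensional_continuousH1S S hpS M hM,
    Fermat.Agent.TW.Primes.FinH1S52.finiteDimensional_continuousH1S_dual S hpS M hM, h⟩

variable (ρbar : ResidualGaloisRep k)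

/-- The contracts of program TW that are still open. -/
structure OpenContracts (Smin : Finset ℕ) : Prop where
  /-- WP5a (helper96) -/
  unipotent : ∀ q : Nat.Primes, (q : ℕ) ∈ Smin → (q : ℕ) ≠ p → LocalBoundUnipotent p ρbar q
  /-- WP5b (helper61) -/
  twLocal : ∀ q : Nat.Primes, (q : ℕ) ∉ Smin → p ∣ (q : ℕ) - 1 →
    DistinctFrobEigenvalues ρbar (q : ℕ) → LocalBoundTW p ρbar q
  /-- WP7 (helper72 and team) -/
  flat : LocalBoundFlat p ρbar
  /-- WP8 detection (helper76 and the group theory team) -/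
  detects : ∀ Smin' : Finset Nat.Primes, pPrime p ∈ Smin' →
    (∀ q : Nat.Primes, q ∉ Smin' → ρbar.IsUnramifiedAt q) → DetectsDual p ρbar Smin'
  /-- WP2 + WP3 (helper22, helper94) -/
  pairings : ∀ S' : Finset Nat.Primes, pPrime p ∈ S' →
    (∀ q : Nat.Primes, q ∉ S' → ρbar.IsUnramifiedAt q) →
      ∃ pa : PrimePairings p (ad0 p ρbar),
        Reciprocity p S' (ad0 p ρbar) (assemblePairings p S' (ad0 p ρbar) pa) ∧
        ∀ q ∈ S', (q : ℕ) ∉ Smin → p ∣ (q : ℕ) - 1 →
          DistinctFrobEigenvalues ρbar (q : ℕ) → RightNondegAt p (ad0 p ρbar) pa q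
  /-- WP4 (helper26 and team) -/
  base : ∀ S' : Finset Nat.Primes, pPrime p ∈ S' →
    (∀ q : Nat.Primes, q ∉ S' → ρbar.IsUnramifiedAt q) → BaseInequality p S' (ad0 p ρbar)

/-- The deliverables of `Glue52b` from the open contracts and the closed work packages. -/
theorem deliverablesB_of_openContracts [Finite k] (hp2 : p ≠ 2)
    (habs : ρbar.IsAbsolutelyIrreducible)
    (hdet : (GaloisRepAdic.ofResidualGaloisRep ρbar).DetIsCyclotomic p)
    (Smin : Finset ℕ) (hO : OpenContracts p ρbar Smin) : DeliverablesB p ρbar Smin := by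
  haveI : Module.Finite (ZMod p) k := Module.Finite.of_finite
  refine ⟨hO.unipotent, hO.twLocal,
    Fermat.Agent.TW.Primes.ArchGlob89.archimedeanTerm p ρbar hp2 hdet,
    Fermat.Agent.TW.Primes.ArchGlob89.globalInvariantsZero p ρbar hp2 habs, ?_, hO.pairings, ?_⟩
  · refine twPrimesExist_of_detection p ρbar
      (fun S' hpS' hur =>
        Fermat.Agent.TW.Cocycle.SmoothEnd95.isSmoothUnramified_ad0Dual p ρbar S' hpS' hur)
      (fun S' hpS' hur =>
        Fermat.Agent.TW.Primes.FinH1S52.finiteDimensional_continuousH1S S' hpS' _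
          (Fermat.Agent.TW.Cocycle.SmoothEnd95.isSmoothUnramified_ad0Dual p ρbar S' hpS' hur))
      hO.detects
  · intro S' hpS' hur
    exact baseCase_of_baseInequality p S' hpS' _
      (Fermat.Agent.TW.Cocycle.SmoothEnd95.isSmoothUnramified_ad0 p ρbar S' hur)
      (hO.base S' hpS' hur)

end Contracts

section S56

variable {𝒪 : Type} [CommRing 𝒪] [IsDomain 𝒪] [IsDiscreteValuationRing 𝒪]
  [IsAdicComplete (maximalIdeal 𝒪) 𝒪] [Finite (ResidueField 𝒪)]

/-- **S56 from the open contracts.** The conclusion is literally the conclusion of S56. -/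
theorem s56_of_openContracts
    (p : ℕ) [Fact p.Prime] (hp2 : p ≠ 2) (hp𝒪 : (p : 𝒪) ∈ maximalIdeal 𝒪)
    (ρbar : ResidualGaloisRep (ResidueField 𝒪))
    (habs : ρbar.IsAbsolutelyIrreducible)
    (hdet : (GaloisRepAdic.ofResidualGaloisRep ρbar).DetIsCyclotomic p)
    (S Smin : Finset ℕ) (hpSmin : p ∈ Smin) (hSmin : Smin ⊆ S)
    (hmin : ∀ q : ℕ, q.Prime → q ≠ p → (q ∈ Smin ↔ ¬ ρbar.IsUnramifiedAt q))
    (hO : ∀ _ : Algebra (ZMod p) (ResidueField 𝒪), OpenContracts p ρbar Smin) :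
    (∃ r : ℕ, ∀ n : ℕ, ∃ qv : Fin r → ℕ, Function.Injective qv ∧
      (∀ i, (qv i).Prime ∧ qv i ∉ S ∧ p ^ (n + 1) ∣ qv i - 1) ∧
      (∀ i, ∀ P : ValuationSubring (AlgebraicClosure ℚ), P.LiesOverPrime (qv i) →
        ∀ φ : AlgebraicClosure ℚ ≃ₐ[ℚ] AlgebraicClosure ℚ, P.IsFrobeniusAt φ (qv i) →
          ∃ α β : ResidueField 𝒪, α ≠ β ∧ LinearMap.charpoly (ρbar.ρ φ) = (X - C α) * (X - C β)) ∧
      ∀ DQ : GaloisRep.DeformationRingData 𝒪 ρbar (fun _A _ _ _ ρ =>
          GaloisRep.strictOrdinaryCondition 𝒪 p (Smin ∪ Finset.univ.image qv) ρ ∧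
            ∀ q ∈ Smin, q.Prime → q ≠ p → ρ.IsUnipotentOnInertiaAt q),
        ∃ γ : MvPowerSeries (Fin r) 𝒪 →ₐ[𝒪] DQ.R, Function.Surjective γ) ∧
    (∃ r : ℕ, ∀ n : ℕ, ∃ qv : Fin r → ℕ, Function.Injective qv ∧
      (∀ i, (qv i).Prime ∧ qv i ∉ S ∧ p ^ (n + 1) ∣ qv i - 1) ∧
      (∀ i, ∀ P : ValuationSubring (AlgebraicClosure ℚ), P.LiesOverPrime (qv i) →
        ∀ φ : AlgebraicClosure ℚ ≃ₐ[ℚ] AlgebraicClosure ℚ, P.IsFrobeniusAt φ (qv i) →
          ∃ α β : ResidueField 𝒪, α ≠ β ∧ LinearMap.charpoly (ρbar.ρ φ) = (X - C α) * (X - C β)) ∧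
      ∀ DQ : GaloisRep.DeformationRingData 𝒪 ρbar (fun _A _ _ _ ρ =>
          GaloisRep.flatCondition 𝒪 p (Smin ∪ Finset.univ.image qv) ρ ∧
            ∀ q ∈ Smin, q.Prime → q ≠ p → ρ.IsUnipotentOnInertiaAt q),
        ∃ γ : MvPowerSeries (Fin r) 𝒪 →ₐ[𝒪] DQ.R, Function.Surjective γ) :=
  s56_of_deliverables_zmod p hp2 hp𝒪 ρbar S Smin hpSmin hSmin hmin fun inst =>
    ⟨deliverablesB_of_openContracts p ρbar hp2 habs hdet Smin (hO inst),
      Fermat.Agent.TW.LocP.StrictOrdBound89.localBoundStrictOrdinary p ρbar hp2, (hO inst).flat⟩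

end S56

end Fermat.Agent.TW.Spec.Status52
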