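import Mathlib
import Fermat.Agent.TW.Spec.Status52
import Fermat.Agent.TW.LocalQ.UnipBound96
import Fermat.Agent.TW.LocalQ.TWBound96

/-!
# Program TW (S56): S56 from the contracts that are still OPEN, version 2 (helper52)

Compared with `Status52`: WP5a (`UnipBound96.unipotent_field`) and WP5b
(`TWBound96.twLocal_field`), both by helper96, are now plugged in.

`OpenContracts2 p ρbar Smin` lists exactly what remains: WP7 (`flat`), WP8-detection (`detects`),
WP2+3 (`pairings`), WP4 (`base`).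
-/

set_option autoImplicit false

open CategoryTheory Module groupCohomology ExtCitation Polynomial IsLocalRing

namespace Fermat.Agent.TW.Spec.Status52b

open Fermat.Agent.TW.Spec.Defs52 Fermat.Agent.TW.Spec.Contract52
open Fermat.Agent.TW.Spec.Glue52b Fermat.Agent.TW.Primes.Greedy52
open Fermat.Agent.TW.Spec.Status52

section Contracts

variable (p : ℕ) [Fact p.Prime] {k : Type} [Field k] [Algebra (ZMod p) k]
variable (ρbar : ResidualGaloisRep k)

/-- The contracts of program TW that are still open (after WP5 closed). -/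
structure OpenContracts2 (Smin : Finset ℕ) : Prop where
  /-- WP7 (helper72 and team) -/
  flat : LocalBoundFlat p ρbar
  /-- WP8 detection (helper76 and the group theory team) -/
  detects : ∀ Smin' : Finset Nat.Primes, pPrime p ∈ Smin' →
    (∀ q : Nat.Primes, q ∉ Smin' → ρbar.IsUnramifiedAt q) → DetectsDual p ρbar Smin'
  /-- WP2 + WP3 (helper22, helper94) -/
  pairings : ∀ S' : Finset Nat.Primes, pPrime p ∈ S' →
    (∀ q : Nat.Primes, q ∉ S' → ρbar.IsUnramifiedAt q) →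
      ∃ pa : PrimePairings p (ad0 p ρbar),
        Reciprocity p S' (ad0 p ρbar) (assemblePairings p S' (ad0 p ρbar) pa) ∧
        ∀ q ∈ S', (q : ℕ) ∉ Smin → p ∣ (q : ℕ) - 1 →
          DistinctFrobEigenvalues ρbar (q : ℕ) → RightNondegAt p (ad0 p ρbar) pa q
  /-- WP4 (helper26 and team) -/
  base : ∀ S' : Finset Nat.Primes, pPrime p ∈ S' →
    (∀ q : Nat.Primes, q ∉ S' → ρbar.IsUnramifiedAt q) → BaseInequality p S' (ad0 p ρbar)

theorem openContracts_of_openContracts2 [Finite k] (hp2 : p ≠ 2) (Smin : Finset ℕ)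
    (hpSmin : p ∈ Smin)
    (hmin : ∀ q : ℕ, q.Prime → q ≠ p → (q ∈ Smin ↔ ¬ ρbar.IsUnramifiedAt q))
    (hO : OpenContracts2 p ρbar Smin) : OpenContracts p ρbar Smin :=
  ⟨Fermat.Agent.TW.LocalQ.UnipBound96.unipotent_field p ρbar hp2 Smin hmin,
    Fermat.Agent.TW.LocalQ.TWBound96.twLocal_field p ρbar Smin hpSmin hmin,
    hO.flat, hO.detects, hO.pairings, hO.base⟩

end Contracts

section S56

variable {𝒪 : Type} [CommRing 𝒪] [IsDomain 𝒪] [IsDiscreteValuationRing 𝒪]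
  [IsAdicComplete (maximalIdeal 𝒪) 𝒪] [Finite (ResidueField 𝒪)]

/-- **S56 from the open contracts (version 2).** The conclusion is literally the conclusion of
S56. -/
theorem s56_of_openContracts2
    (p : ℕ) [Fact p.Prime] (hp2 : p ≠ 2) (hp𝒪 : (p : 𝒪) ∈ maximalIdeal 𝒪)
    (ρbar : ResidualGaloisRep (ResidueField 𝒪))
    (habs : ρbar.IsAbsolutelyIrreducible)
    (hdet : (GaloisRepAdic.ofResidualGaloisRep ρbar).DetIsCyclotomic p)
    (S Smin : Finset ℕ) (hpSmin : p ∈ Smin) (hSmin : Smin ⊆ S)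
    (hmin : ∀ q : ℕ, q.Prime → q ≠ p → (q ∈ Smin ↔ ¬ ρbar.IsUnramifiedAt q))
    (hO : ∀ _ : Algebra (ZMod p) (ResidueField 𝒪), OpenContracts2 p ρbar Smin) :
    (∃ r : ℕ, ∀ n : ℕ, ∃ qv : Fin r → ℕ, Function.Injective qv ∧
      (∀ i, (qv i).Prime ∧ qv i ∉ S ∧ p ^ (n + 1) ∣ qv i - 1) ∧
      (∀ i, ∀ P : ValuationSubring (AlgebraicClosure ℚ), P.LiesOverPrime (qv i) →
        ∀ φ : AlgebraicClosure ℚ ≃ₐ[ℚ] AlgebraicClosure ℚ, P.IsFrobeniusAt φ (qv i) →
          ∃ α β : ResidueField 𝒪, α ≠ β ∧ LinearMap.charpoly (ρbar.ρ φ) = (X - C α) * (X - C β)) ∧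
      ∀ DQ : GaloisRep.DeformationRingData 𝒪 ρbar (fun _A _ _ _ ρ =>
          GaloisRep.strictOrdinaryCondition 𝒪 p (Smin ∪ Finset.univ.image qv) ρ ∧
            ∀ q ∈ Smin, q.Prime → q ≠ p → ρ.IsUnipotentOnInertiaAt q),
        ∃ γ : MvPowerSeries (Fin r) 𝒪 →ₐ[𝒪] DQ.R, Function.Surjective γ) ∧
    (∃ r : ℕ, ∀ n : ℕ, ∃ qv : Fin r → ℕ, Function.Injective qv ∧
      (∀ i, (qv i).Prime ∧ qv i ∉ S ∧ p ^ (n + 1) ∣ qv i - 1) ∧
      (∀ i, ∀ P : ValuationSubring (AlgebraicClosure ℚ), P.LiesOverPrime (qv i) →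
        ∀ φ : AlgebraicClosure ℚ ≃ₐ[ℚ] AlgebraicClosure ℚ, P.IsFrobeniusAt φ (qv i) →
          ∃ α β : ResidueField 𝒪, α ≠ β ∧ LinearMap.charpoly (ρbar.ρ φ) = (X - C α) * (X - C β)) ∧
      ∀ DQ : GaloisRep.DeformationRingData 𝒪 ρbar (fun _A _ _ _ ρ =>
          GaloisRep.flatCondition 𝒪 p (Smin ∪ Finset.univ.image qv) ρ ∧
            ∀ q ∈ Smin, q.Prime → q ≠ p → ρ.IsUnipotentOnInertiaAt q),
        ∃ γ : MvPowerSeries (Fin r) 𝒪 →ₐ[𝒪] DQ.R, Function.Surjective γ) :=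
  s56_of_openContracts p hp2 hp𝒪 ρbar habs hdet S Smin hpSmin hSmin hmin fun inst =>
    openContracts_of_openContracts2 p ρbar hp2 Smin hpSmin hmin (hO inst)

end S56

end Fermat.Agent.TW.Spec.Status52b
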