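import Mathlib
import Fermat.Agent.TW.Spec.Status52b
import Fermat.Agent.TW.Primes.TWPrimesFinal52

/-!
# Program TW (S56): S56 from the contracts that are still OPEN, version 3 (helper52)

Compared with `Status52b`: WP8 (existence of Taylor–Wiles primes,
`TWPrimesFinal52.twPrimesExist`) is now plugged in; the hypotheses `hsplit`, `hTW` of S56 are used
there.

`OpenContracts3 p ρbar Smin` lists exactly what remains: WP7 (`flat`), WP2+3 (`pairings`),
WP4 (`base`).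
-/

set_option autoImplicit false

open CategoryTheory Module groupCohomology ExtCitation Polynomial IsLocalRing

namespace Fermat.Agent.TW.Spec.Status52c

open Fermat.Agent.TW.Spec.Defs52 Fermat.Agent.TW.Spec.Contract52
open Fermat.Agent.TW.Spec.Glue52b Fermat.Agent.TW.Primes.Greedy52
open Fermat.Agent.TW.Spec.Status52

section Contracts

variable (p : ℕ) [Fact p.Prime] {k : Type} [Field k] [Algebra (ZMod p) k]
variable (ρbar : ResidualGaloisRep k)

/-- The contracts of program TW that are still open (after WP5 and WP8 closed). -/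
structure OpenContracts3 (Smin : Finset ℕ) : Prop where
  /-- WP7 (helper72 and team) -/
  flat : LocalBoundFlat p ρbar
  /-- WP2 + WP3 (helper22, helper94) -/
  pairings : ∀ S' : Finset Nat.Primes, pPrime p ∈ S' →
    (∀ q : Nat.Primes, q ∉ S' → ρbar.IsUnramifiedAt q) →
      ∃ pa : PrimePairings p (ad0 p ρbar),
        Reciprocity p S' (ad0 p ρbar) (assemblePairings p S' (ad0 p ρbar) pa) ∧
        ∀ q ∈ S', (q : ℕ) ∉ Smin → p ∣ (q : ℕ) - 1 →
          DistinctFrobEigenvalues ρbar (q : ℕ) → RightNondegAt p (ad0 p ρbar) pa q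
  /-- WP4 (helper26 and team) -/
  base : ∀ S' : Finset Nat.Primes, pPrime p ∈ S' →
    (∀ q : Nat.Primes, q ∉ S' → ρbar.IsUnramifiedAt q) → BaseInequality p S' (ad0 p ρbar)

/-- The deliverables of `Glue52b` from the three open contracts and the closed work packages. -/
theorem deliverablesB_of_openContracts3 [Finite k] (hp2 : p ≠ 2)
    (habs : ρbar.IsAbsolutelyIrreducible)
    (hdet : (GaloisRepAdic.ofResidualGaloisRep ρbar).DetIsCyclotomic p)
    (hsplit : ∀ σ : GQ, ∃ α β : k, LinearMap.charpoly (ρbar.ρ σ) = (X - C α) * (X - C β))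
    (hTW : ∀ (K : Type) [Field K] [Algebra k K] (G : Subgroup GQ), G.index = 2 →
      ∀ V : Submodule K (ρbar.baseChange K).V,
        (∀ σ ∈ G, ∀ x ∈ V, (ρbar.baseChange K).ρ σ x ∈ V) → V = ⊥ ∨ V = ⊤)
    (Smin : Finset ℕ) (hpSmin : p ∈ Smin)
    (hmin : ∀ q : ℕ, q.Prime → q ≠ p → (q ∈ Smin ↔ ¬ ρbar.IsUnramifiedAt q))
    (hO : OpenContracts3 p ρbar Smin) : DeliverablesB p ρbar Smin := by
  haveI : Module.Finite (ZMod p) k := Module.Finite.of_finite
  refine ⟨Fermat.Agent.TW.LocalQ.UnipBound96.unipotent_field p ρbar hp2 Smin hmin,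
    Fermat.Agent.TW.LocalQ.TWBound96.twLocal_field p ρbar Smin hpSmin hmin,
    Fermat.Agent.TW.Primes.ArchGlob89.archimedeanTerm p ρbar hp2 hdet,
    Fermat.Agent.TW.Primes.ArchGlob89.globalInvariantsZero p ρbar hp2 habs,
    Fermat.Agent.TW.Primes.TWPrimesFinal52.twPrimesExist p ρbar hp2 habs hdet hsplit hTW,
    hO.pairings, ?_⟩
  intro S' hpS' hur
  exact baseCase_of_baseInequality p S' hpS' _
    (Fermat.Agent.TW.Cocycle.SmoothEnd95.isSmoothUnramified_ad0 p ρbar S' hur)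
    (hO.base S' hpS' hur)

end Contracts

section S56

variable {𝒪 : Type} [CommRing 𝒪] [IsDomain 𝒪] [IsDiscreteValuationRing 𝒪]
  [IsAdicComplete (maximalIdeal 𝒪) 𝒪] [Finite (ResidueField 𝒪)]

/-- **S56 from the open contracts (version 3).** Binders and conclusion are literally those of
S56, plus the hypothesis `hO`. -/
theorem s56_of_openContracts3
    (p : ℕ) [Fact p.Prime] (hp2 : p ≠ 2) (hp𝒪 : (p : 𝒪) ∈ maximalIdeal 𝒪)
    (ρbar : ResidualGaloisRep (ResidueField 𝒪))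
    (habs : ρbar.IsAbsolutelyIrreducible)
    (hdet : (GaloisRepAdic.ofResidualGaloisRep ρbar).DetIsCyclotomic p)
    (hsplit : ∀ σ : AlgebraicClosure ℚ ≃ₐ[ℚ] AlgebraicClosure ℚ,
      ∃ α β : ResidueField 𝒪, LinearMap.charpoly (ρbar.ρ σ) = (X - C α) * (X - C β))
    (hTW : ∀ (K : Type) [Field K] [Algebra (ResidueField 𝒪) K]
      (G : Subgroup (AlgebraicClosure ℚ ≃ₐ[ℚ] AlgebraicClosure ℚ)), G.index = 2 →
      ∀ V : Submodule K (ρbar.baseChange K).V,
        (∀ σ ∈ G, ∀ x ∈ V, (ρbar.baseChange K).ρ σ x ∈ V) → V = ⊥ ∨ V = ⊤)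
    (S Smin : Finset ℕ) (hpSmin : p ∈ Smin) (hSmin : Smin ⊆ S)
    (hmin : ∀ q : ℕ, q.Prime → q ≠ p → (q ∈ Smin ↔ ¬ ρbar.IsUnramifiedAt q))
    (hO : ∀ _ : Algebra (ZMod p) (ResidueField 𝒪), OpenContracts3 p ρbar Smin) :
    (∃ r : ℕ, ∀ n : ℕ, ∃ qv : Fin r → ℕ, Function.Injective qv ∧
      (∀ i, (qv i).Prime ∧ qv i ∉ S ∧ p ^ (n + 1) ∣ qv i - 1) ∧
      (∀ i, ∀ P : ValuationSubring (AlgebraicClosure ℚ), P.LiesOverPrime (qv i) →
        ∀ φ : AlgebraicClosure ℚ ≃ₐ[ℚ] AlgebraicClosure ℚ, P.IsFrobeniusAt φ (qv i) →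
          ∃ α β : ResidueField 𝒪, α ≠ β ∧ LinearMap.charpoly (ρbar.ρ φ) = (X - C α) * (X - C β)) ∧
      ∀ DQ : GaloisRep.DeformationRingData 𝒪 ρbar (fun _A _ _ _ ρ =>
          GaloisRep.strictOrdinaryCondition 𝒪 p (Smin ∪ Finset.univ.image qv) ρ ∧
            ∀ q ∈ Smin, q.Prime → q ≠ p → ρ.IsUnipotentOnInertiaAt q),
        ∃ γ : MvPowerSeries (Fin r) 𝒪 →ₐ[𝒪] DQ.R, Function.Surjective γ) ∧
    (∃ r : ℕ, ∀ n : ℕ, ∃ qv : Fin r → ℕ, Function.Injective qv ∧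
      (∀ i, (qv i).Prime ∧ qv i ∉ S ∧ p ^ (n + 1) ∣ qv i - 1) ∧
      (∀ i, ∀ P : ValuationSubring (AlgebraicClosure ℚ), P.LiesOverPrime (qv i) →
        ∀ φ : AlgebraicClosure ℚ ≃ₐ[ℚ] AlgebraicClosure ℚ, P.IsFrobeniusAt φ (qv i) →
          ∃ α β : ResidueField 𝒪, α ≠ β ∧ LinearMap.charpoly (ρbar.ρ φ) = (X - C α) * (X - C β)) ∧
      ∀ DQ : GaloisRep.DeformationRingData 𝒪 ρbar (fun _A _ _ _ ρ =>
          GaloisRep.flatCondition 𝒪 p (Smin ∪ Finset.univ.image qv) ρ ∧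
            ∀ q ∈ Smin, q.Prime → q ≠ p → ρ.IsUnipotentOnInertiaAt q),
        ∃ γ : MvPowerSeries (Fin r) 𝒪 →ₐ[𝒪] DQ.R, Function.Surjective γ) :=
  s56_of_deliverables_zmod p hp2 hp𝒪 ρbar S Smin hpSmin hSmin hmin fun inst =>
    ⟨deliverablesB_of_openContracts3 p ρbar hp2 habs hdet hsplit hTW Smin hpSmin hmin (hO inst),
      Fermat.Agent.TW.LocP.StrictOrdBound89.localBoundStrictOrdinary p ρbar hp2, (hO inst).flat⟩

end S56

end Fermat.Agent.TW.Spec.Status52c
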