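import Mathlib
import Fermat.Agent.TW.Spec.Status52c
import Fermat.Agent.TW.LocalDuality.Reciprocity22

/-!
# Program TW (S56): S56 from the contracts that are still OPEN, version 4 (helper52)

Compared with `Status52c`: helper22's `Reciprocity22.exists_pairings` is plugged in, so that the
`pairings` contract is replaced by the purely arithmetic **sum formula for the local invariants**
(`Reciprocity22.SumFormula`, the conclusion of `RecipQ94.exists_lam`), which does not involve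
`ρbar` at all.

`OpenContracts4 p ρbar` lists exactly what remains: WP7 (`flat`), WP3 (`sumFormula`),
WP4 (`base`).
-/

set_option autoImplicit false

open CategoryTheory Module groupCohomology ExtCitation Polynomial IsLocalRing

namespace Fermat.Agent.TW.Spec.Status52d

open Fermat.Agent.TW.Spec.Defs52 Fermat.Agent.TW.Spec.Contract52
open Fermat.Agent.TW.Spec.Glue52b Fermat.Agent.TW.Primes.Greedy52
open Fermat.Agent.TW.Spec.Status52 Fermat.Agent.TW.Spec.Status52c

section Contracts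

variable (p : ℕ) [Fact p.Prime] {k : Type} [Field k] [Algebra (ZMod p) k]
variable (ρbar : ResidualGaloisRep k)

/-- WP3: the sum formula for the local invariants, with units `lam q`. -/
def SumFormulaExists : Prop :=
  ∀ S' : Finset Nat.Primes, pPrime p ∈ S' →
    ∃ lam : ↥S' → ZMod p, (∀ q, lam q ≠ 0) ∧
      Fermat.Agent.TW.LocalDuality.Reciprocity22.SumFormula p S' lam

/-- The contracts of program TW that are still open. -/
structure OpenContracts4 : Prop where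
  /-- WP7 (helper72 and team) -/
  flat : LocalBoundFlat p ρbar
  /-- WP3 (helper94, backup helper22) -/
  sumFormula : SumFormulaExists p
  /-- WP4 (helper26 and team) -/
  base : ∀ S' : Finset Nat.Primes, pPrime p ∈ S' →
    (∀ q : Nat.Primes, q ∉ S' → ρbar.IsUnramifiedAt q) → BaseInequality p S' (ad0 p ρbar)

theorem openContracts3_of_openContracts4 [Finite k] (Smin : Finset ℕ)
    (hO : OpenContracts4 p ρbar) : OpenContracts3 p ρbar Smin := by
  haveI : Module.Finite (ZMod p) k := Module.Finite.of_finite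
  refine ⟨hO.flat, ?_, hO.base⟩
  intro S' hpS' hur
  have hM := Fermat.Agent.TW.Cocycle.SmoothEnd95.isSmoothUnramified_ad0 p ρbar S' hur
  haveI : FiniteDimensional (ZMod p) (ad0 p ρbar) := hM.finite
  obtain ⟨pa, hrec, hnd⟩ := Fermat.Agent.TW.LocalDuality.Reciprocity22.exists_pairings p S' hpS'
    (ad0 p ρbar) hM.smooth hM.unramified (hO.sumFormula S' hpS')
  exact ⟨pa, hrec, fun q _ _ _ _ => hnd q⟩

end Contracts

section S56

variable {𝒪 : Type} [CommRing 𝒪] [IsDomain 𝒪] [IsDiscreteValuationRing 𝒪]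
  [IsAdicComplete (maximalIdeal 𝒪) 𝒪] [Finite (ResidueField 𝒪)]

/-- **S56 from the open contracts (version 4).** Binders and conclusion are literally those of
S56, plus the hypothesis `hO`. -/
theorem s56_of_openContracts4
    (p : ℕ) [Fact p.Prime] (hp2 : p ≠ 2) (hp𝒪 : (p : 𝒪) ∈ maximalIdeal 𝒪)
    (ρbar : ResidualGaloisRep (ResidueField 𝒪))
    (habs : ρbar.IsAbsolutelyIrreducible)
    (hdet : (GaloisRepAdic.ofResidualGaloisRep ρbar).DetIsCyclotomic p)
    (hsplit : ∀ σ : AlgebraicClosure ℚ ≃ₐ[ℚ] AlgebraicClosure ℚ,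
      ∃ α β : ResidueField 𝒪, LinearMap.charpoly (ρbar.ρ σ) = (X - C α) * (X - C β))
    (hTW : ∀ (K : Type) [Field K] [Algebra (ResidueField 𝒪) K]
      (G : Subgroup (AlgebraicClosure ℚ ≃ₐ[ℚ] AlgebraicClosure ℚ)), G.index = 2 →
      ∀ V : Submodule K (ρbar.baseChange K).V,
        (∀ σ ∈ G, ∀ x ∈ V, (ρbar.baseChange K).ρ σ x ∈ V) → V = ⊥ ∨ V = ⊤)
    (S Smin : Finset ℕ) (hpSmin : p ∈ Smin) (hSmin : Smin ⊆ S)
    (hmin : ∀ q : ℕ, q.Prime → q ≠ p → (q ∈ Smin ↔ ¬ ρbar.IsUnramifiedAt q))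
    (hO : ∀ _ : Algebra (ZMod p) (ResidueField 𝒪), OpenContracts4 p ρbar) :
    (∃ r : ℕ, ∀ n : ℕ, ∃ qv : Fin r → ℕ, Function.Injective qv ∧
      (∀ i, (qv i).Prime ∧ qv i ∉ S ∧ p ^ (n + 1) ∣ qv i - 1) ∧
      (∀ i, ∀ P : ValuationSubring (AlgebraicClosure ℚ), P.LiesOverPrime (qv i) →
        ∀ φ : AlgebraicClosure ℚ ≃ₐ[ℚ] AlgebraicClosure ℚ, P.IsFrobeniusAt φ (qv i) →
          ∃ α β : ResidueField 𝒪, α ≠ β ∧ LinearMap.charpoly (ρbar.ρ φ) = (X - C α) * (X - C β)) ∧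
      ∀ DQ : GaloisRep.DeformationRingData 𝒪 ρbar (fun _A _ _ _ ρ =>
          GaloisRep.strictOrdinaryCondition 𝒪 p (Smin ∪ Finset.univ.image qv) ρ ∧
            ∀ q ∈ Smin, q.Prime → q ≠ p → ρ.IsUnipotentOnInertiaAt q),
        ∃ γ : MvPowerSeries (Fin r) 𝒪 →ₐ[𝒪] DQ.R, Function.Surjective γ) ∧
    (∃ r : ℕ, ∀ n : ℕ, ∃ qv : Fin r → ℕ, Function.Injective qv ∧
      (∀ i, (qv i).Prime ∧ qv i ∉ S ∧ p ^ (n + 1) ∣ qv i - 1) ∧
      (∀ i, ∀ P : ValuationSubring (AlgebraicClosure ℚ), P.LiesOverPrime (qv i) →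
        ∀ φ : AlgebraicClosure ℚ ≃ₐ[ℚ] AlgebraicClosure ℚ, P.IsFrobeniusAt φ (qv i) →
          ∃ α β : ResidueField 𝒪, α ≠ β ∧ LinearMap.charpoly (ρbar.ρ φ) = (X - C α) * (X - C β)) ∧
      ∀ DQ : GaloisRep.DeformationRingData 𝒪 ρbar (fun _A _ _ _ ρ =>
          GaloisRep.flatCondition 𝒪 p (Smin ∪ Finset.univ.image qv) ρ ∧
            ∀ q ∈ Smin, q.Prime → q ≠ p → ρ.IsUnipotentOnInertiaAt q),
        ∃ γ : MvPowerSeries (Fin r) 𝒪 →ₐ[𝒪] DQ.R, Function.Surjective γ) :=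
  s56_of_openContracts3 p hp2 hp𝒪 ρbar habs hdet hsplit hTW S Smin hpSmin hSmin hmin fun inst =>
    openContracts3_of_openContracts4 p ρbar Smin (hO inst)

end S56

end Fermat.Agent.TW.Spec.Status52d
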