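import Mathlib
import Fermat.Agent.TW.Spec.Contract52
import Fermat.Agent.TW.Cocycle.AdRep95
import Fermat.Agent.S53.MatrixModel

/-!
# Program TW (S56): the contracts between the work packages, VERSION B (helper52, architect)

Version B replaces the basis-free model `Defs52.ad0 p ρbar` of `Contract52` by helper95's MATRIX
model (`TW/Cocycle/AdRep95`): the residual representation is a matrix representation
`rbar : GQ →* M₂ k`, and `M = adM p rbar = AdRep95.ad0 (ZMod p) rbar` has carrier `↥(sl2 k)`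
(trace-zero `2 × 2` matrices) with action `g • X = rbar g * X * rbar g⁻¹`.
`Contract52` is superseded by this file; the shape of every contract is unchanged.

Every `def … : Prop` below is the EXACT statement that one work package delivers
(as `theorem foo (hyps) : ContractB52.Name …`). The assembly (WP9, `AssemblyB52`) consumes them.

Notation: `M = adM p rbar`, `M' = adM' p rbar = M.dualTwist (cycloChar p)`, `d = [k : 𝔽_p]`;
all dimensions are over `ZMod p`.
-/

set_option autoImplicit false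

open CategoryTheory Module groupCohomology ExtCitation Polynomial

namespace Fermat.Agent.TW.Spec.ContractB52

open Fermat.Agent.TW.Spec.Defs52 (GQ ResIso TangentBound locAt resAt resH1At H1cAt h0At)
open Fermat.Agent.TW.Cocycle.AdRep95 Fermat.Agent.TW.Cocycle.DualMat95

local notation "M₂" => Matrix (Fin 2) (Fin 2)

/-! ## The objects -/

section Objects

variable (p : ℕ) [Fact p.Prime] {k : Type} [Field k] [Algebra (ZMod p) k] (rbar : GQ →* M₂ k)

/-- `ad⁰` of the matrix representation `rbar`, with `ZMod p`-coefficients (helper95's model). -/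
noncomputable abbrev adM : Rep.{0} (ZMod p) GQ := ad0 (ZMod p) rbar

/-- The Tate dual `ad⁰(rbar)^*(1)`. -/
noncomputable abbrev adM' : Rep.{0} (ZMod p) GQ := (adM p rbar).dualTwist (cycloChar p)

/-- `rbar` is the matrix of `ρbar` in some basis. -/
def IsMatrixOf (ρbar : ResidualGaloisRep k) : Prop :=
  ∃ bbar : Module.Basis (Fin 2) k ρbar.V, ∀ σ : GQ, rbar σ = LinearMap.toMatrix bbar bbar (ρbar.ρ σ)

/-- `x ∈ H¹(GQ, ad⁰ rbar)` is the class of the lift `ρ`: in some basis `b` of `ρ.V` the matrix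
representation `matrixOf ρ b` lifts `rbar` with constant determinant, and `x` is helper95's
`liftClass` of it (cocycle `g ↦ (ε-part of ρ(g)) * rbar(g)⁻¹`). -/
def IsLiftClass (ρ : GaloisRepAdic (DualNumber k)) (x : H1 (adM p rbar)) : Prop :=
  ∃ (b : Module.Basis (Fin 2) (DualNumber k) ρ.V) (h : IsLiftOf rbar (Fermat.Agent.S53.MatrixModel.matrixOf ρ b)),
    liftClass (ZMod p) h = x

end Objects

/-! ## WP1: cocycle dictionary -/

section WP1

variable (p : ℕ) [Fact p.Prime] {k : Type} [Field k] [Algebra (ZMod p) k]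
  (ρbar : ResidualGaloisRep k) (rbar : GQ →* M₂ k)

/-- (1.1) every lift of `ρbar` with cyclotomic determinant has a class in `H¹(GQ, ad⁰)`.
(WP1 proves it under `IsMatrixOf rbar ρbar`.) -/
def CocycleExists : Prop :=
  ∀ ρ : GaloisRepAdic (DualNumber k), ResIso ρbar ρ → ρ.DetIsCyclotomic p →
    ∃ x : H1 (adM p rbar), IsLiftClass p rbar ρ x

/-- (1.2) if the lift is unramified outside `S` its class is `S`-level-constant. -/
def CocycleUnramified : Prop :=
  ∀ (S : Finset Nat.Primes) (ρ : GaloisRepAdic (DualNumber k)) (x : H1 (adM p rbar)),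
    IsLiftClass p rbar ρ x → (∀ q : Nat.Primes, q ∉ S → ρ.IsUnramifiedAt q) →
      x ∈ continuousH1S S (adM p rbar)

/-- (1.3) lifts with the same class are equivalent. -/
def CocycleInjective : Prop :=
  ∀ (ρ ρ' : GaloisRepAdic (DualNumber k)) (x : H1 (adM p rbar)),
    IsLiftClass p rbar ρ x → IsLiftClass p rbar ρ' x → ρ.IsEquiv ρ'

end WP1

/-! ## WP5, WP6, WP7: local bounds -/

section LocalBounds

variable (p : ℕ) [Fact p.Prime] {k : Type} [Field k] [Algebra (ZMod p) k] (rbar : GQ →* M₂ k)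

/-- There is a subspace `L ≤ H¹(ℚ_q, ad⁰)` of dimension `≤ h⁰(ℚ_q, ad⁰) + δ d` containing the
local class of every lift satisfying `cond`. -/
def LocalBound (q : Nat.Primes) (cond : GaloisRepAdic (DualNumber k) → Prop) (δ : ℕ) : Prop :=
  ∃ L : Submodule (ZMod p) (H1 (resAt q (adM p rbar))), FiniteDimensional (ZMod p) L ∧
    finrank (ZMod p) L ≤ h0At q (adM p rbar) + δ * finrank (ZMod p) k ∧
    ∀ (ρ : GaloisRepAdic (DualNumber k)) (x : H1 (adM p rbar)),
      IsLiftClass p rbar ρ x → cond ρ → resH1At q (adM p rbar) x ∈ L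

/-- WP6 delivers this (under the hypotheses of S56 on `ρbar`, `IsMatrixOf rbar ρbar`). -/
def LocalBoundStrictOrdinary : Prop :=
  LocalBound p rbar (pPrime p) (fun ρ => ρ.DetIsCyclotomic p ∧ ρ.IsStrictOrdinaryAt p) 1

/-- WP7 delivers this (under the hypotheses of S56 on `ρbar`, `IsMatrixOf rbar ρbar`). -/
def LocalBoundFlat : Prop :=
  LocalBound p rbar (pPrime p) (fun ρ => ρ.DetIsCyclotomic p ∧ ρ.IsFlatAt p) 1

/-- WP5a delivers this for every prime `q ≠ p` at which `rbar` is ramified. -/
def LocalBoundUnipotent (q : Nat.Primes) : Prop :=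
  LocalBound p rbar q (fun ρ => ρ.IsUnipotentOnInertiaAt q) 0

/-- WP5b delivers this for Taylor–Wiles primes `q` (`q ≠ p`, `rbar` unramified at `q`,
`q ≡ 1 mod p`, distinct Frobenius eigenvalues): `dim H¹(ℚ_q, ad⁰) ≤ h⁰(ℚ_q, ad⁰) + d`. -/
def LocalBoundTW (q : Nat.Primes) : Prop :=
  FiniteDimensional (ZMod p) (H1cAt q (adM p rbar)) ∧
    finrank (ZMod p) (H1cAt q (adM p rbar)) ≤ h0At q (adM p rbar) + finrank (ZMod p) k

/-- The clause of S56 on Frobenius eigenvalues at `q`, for the matrix representation. -/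
def DistinctFrobEigenvalues (q : ℕ) : Prop :=
  ∀ P : ValuationSubring (AlgebraicClosure ℚ), P.LiesOverPrime q →
    ∀ φ : GQ, P.IsFrobeniusAt φ q →
      ∃ α β : k, α ≠ β ∧ (rbar φ).charpoly = (X - C α) * (X - C β)

/-- `rbar` is unramified at `q`. -/
def IsUnramifiedAt (q : ℕ) : Prop :=
  ∀ P : ValuationSubring (AlgebraicClosure ℚ), P.LiesOverPrime q →
    ∀ σ ∈ P.inertiaSubgroupIn ℚ, rbar σ = 1

/-- The archimedean place: `H¹(ℝ, ad⁰) = 0` and `h⁰(ℝ, ad⁰) ≥ d` (WP8b). -/
def ArchimedeanTerm : Prop :=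
  (∀ x : H1 (Rep.res archimedeanLoc (adM p rbar)), x = 0) ∧
    finrank (ZMod p) k ≤ finrank (ZMod p) (Rep.res archimedeanLoc (adM p rbar)).ρ.invariants

/-- `H⁰(GQ, ad⁰) = 0` (WP8a; essentially `AdRep95.invariants_ad0_eq_bot`). -/
def GlobalInvariantsZero : Prop :=
  finrank (ZMod p) (adM p rbar).ρ.invariants = 0

end LocalBounds

/-! ## WP2, WP3, WP4

The contracts `PrimePairings`, `assemblePairings`, `Reciprocity`, `RightNondegAt`, `BaseCase`,
`GWInequality`, `IsSmoothUnramified` of `Contract52` (section `GW`) are about a general module `M`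
and remain the authoritative ones; they are not repeated here. -/

/-! ## WP8: Taylor–Wiles primes -/

section WP8

variable (p : ℕ) [Fact p.Prime] {k : Type} [Field k] [Algebra (ZMod p) k] (rbar : GQ →* M₂ k)

/-- The primes in `Q` detect every class of `H¹_S(GQ, ad⁰(rbar)^*(1))`. -/
def KillsDual (S Q : Finset Nat.Primes) : Prop :=
  ∀ y ∈ continuousH1S S (adM' p rbar),
    (∀ q ∈ Q, resH1At q (adM' p rbar) y = 0) → y = 0

/-- WP8 delivers this (under the hypotheses of S56 on `ρbar`, `IsMatrixOf rbar ρbar`, `p` odd):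
for every finite set `T` of excluded primes and every `Smin ∋ p` outside which `rbar` is unramified
there is `r` such that for every `n` there are `r` distinct Taylor–Wiles primes of level `n` outside
`T` detecting all of `H¹_{Smin ∪ Q}(GQ, ad⁰(rbar)^*(1))`. -/
def TWPrimesExist : Prop :=
  ∀ (T : Finset ℕ) (Smin : Finset Nat.Primes), pPrime p ∈ Smin →
    (∀ q ∈ Smin, (q : ℕ) ∈ T) → (∀ q : Nat.Primes, q ∉ Smin → IsUnramifiedAt rbar q) →
    ∃ r : ℕ, ∀ n : ℕ, ∃ qv : Fin r → Nat.Primes, Function.Injective qv ∧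
      (∀ i, (qv i : ℕ) ∉ T ∧ p ^ (n + 1) ∣ (qv i : ℕ) - 1) ∧
      (∀ i, DistinctFrobEigenvalues rbar (qv i : ℕ)) ∧
      KillsDual p rbar (Smin ∪ Finset.univ.image qv) (Finset.univ.image qv)

end WP8

end Fermat.Agent.TW.Spec.ContractB52
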