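import Mathlib
import Fermat.Agent.TW.Spec.ContractB52
import Fermat.Agent.TW.Spec.Assembly52

/-!
# Program TW (S56), WP9: assembly of the contracts, VERSION B (helper52)

* `tangentBound_core`          : the counting argument for an ABSTRACT module `M` and an abstract
                                 relation `LC ρ x` ("`x` is the class of the lift `ρ`").
* `tangentBound_of_contractsB` : its instance for helper95's matrix model (`ContractB52`).
-/

set_option autoImplicit false

open CategoryTheory Module groupCohomology ExtCitation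

namespace Fermat.Agent.TW.Spec.AssemblyB52

open Fermat.Agent.TW.Spec.Defs52 (GQ ResIso TangentBound locAt resAt resH1At H1cAt h0At)
open Fermat.Agent.TW.Spec.Contract52 (dualOf PrimePairings assemblePairings GWInequality
  RightNondegAt)
open Fermat.Agent.TW.Spec.Assembly52 (resH1At_mem_H1cAt assembleConditions sum_extArithIndex)

local notation "M₂" => Matrix (Fin 2) (Fin 2)

variable {p : ℕ} [Fact p.Prime] {k : Type} [Field k] [Finite k] [Algebra (ZMod p) k]

/-- **WP9, abstract core.** -/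
theorem tangentBound_core (ρbar : ResidualGaloisRep k)
    (M : Rep.{0} (ZMod p) GQ) (LC : GaloisRepAdic (DualNumber k) → H1 M → Prop)
    (S Q : Finset Nat.Primes) (hQS : Q ⊆ S)
    (cond : GaloisRepAdic (DualNumber k) → Prop)
    (hdet : ∀ ρ, cond ρ → ρ.DetIsCyclotomic p)
    (hunr : ∀ ρ, cond ρ → ∀ q : Nat.Primes, q ∉ S → ρ.IsUnramifiedAt q)
    (hC1 : ∀ ρ : GaloisRepAdic (DualNumber k), ResIso ρbar ρ → ρ.DetIsCyclotomic p →
      ∃ x : H1 M, LC ρ x)
    (hC2 : ∀ (ρ : GaloisRepAdic (DualNumber k)) (x : H1 M), LC ρ x →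
      (∀ q : Nat.Primes, q ∉ S → ρ.IsUnramifiedAt q) → x ∈ continuousH1S S M)
    (hC3 : ∀ (ρ ρ' : GaloisRepAdic (DualNumber k)) (x : H1 M), LC ρ x → LC ρ' x → ρ.IsEquiv ρ')
    (Lq : ∀ q : Nat.Primes, Submodule (ZMod p) (H1 (resAt q M)))
    (hLfin : ∀ q ∈ S, FiniteDimensional (ZMod p) (Lq q))
    (δ : Nat.Primes → ℕ)
    (hLdim : ∀ q ∈ S, finrank (ZMod p) (Lq q) ≤ h0At q M + δ q * finrank (ZMod p) k)
    (hδ : ∑ q ∈ S, δ q ≤ Q.card + 1)
    (hLmem : ∀ (ρ : GaloisRepAdic (DualNumber k)) (x : H1 M),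
      LC ρ x → cond ρ → ∀ q ∈ S, resH1At q M x ∈ Lq q)
    (hLQ : ∀ q ∈ Q, H1cAt q M ≤ Lq q)
    (harch1 : ∀ x : H1 (Rep.res archimedeanLoc M), x = 0)
    (harch2 : finrank (ZMod p) k ≤ finrank (ZMod p) (Rep.res archimedeanLoc M).ρ.invariants)
    (hglob : finrank (ZMod p) M.ρ.invariants = 0)
    (pa : PrimePairings p M)
    (hGW : GWInequality p S M (assemblePairings p S M pa))
    (hfin : FiniteDimensional (ZMod p) (continuousH1S S M))
    (hnd : ∀ q ∈ Q, RightNondegAt p M pa q)
    (hkill : ∀ y ∈ continuousH1S S (dualOf p M),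
      (∀ q ∈ Q, resH1At q (dualOf p M) y = 0) → y = 0) :
    TangentBound ρbar cond Q.card := by
  classical
  intro ι _ ρ hρ hinj
  -- classes of the lifts
  have hx : ∀ i, ∃ x, LC (ρ i) x :=
    fun i => hC1 (ρ i) (hρ i).2 (hdet _ (hρ i).1)
  choose x hx using hx
  -- the local conditions
  have hLfinv : ∀ v, FiniteDimensional (ZMod p) (assembleConditions S M Lq v) := by
    rintro (_ | ⟨q, hq⟩)
    · show FiniteDimensional (ZMod p)
        (⊥ : Submodule (ZMod p) (H1 (Rep.res (extArithLoc S (Sum.inl ())) M)))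
      infer_instance
    · exact hLfin q hq
  -- membership in the Selmer group
  have hmem : ∀ i, x i ∈ selmerAdm (extArithLoc S) M
      (assembleConditions S M Lq) (continuousH1S S M) := by
    intro i
    rw [mem_selmerAdm_iff]
    refine ⟨?_, hC2 (ρ i) (x i) (hx i) (hunr _ (hρ i).1)⟩
    rintro (_ | ⟨q, hq⟩)
    · exact (Submodule.mem_bot _).mpr (harch1 _)
    · exact hLmem (ρ i) (x i) (hx i) (hρ i).1 q hq
  have hxinj : Function.Injective (fun i => (⟨x i, hmem i⟩ :
      selmerAdm (extArithLoc S) M (assembleConditions S M Lq) (continuousH1S S M))) := by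
    intro i j h
    have hij : x i = x j := congrArg Subtype.val h
    exact hinj i j (hC3 (ρ i) (ρ j) (x i) (hx i) (hij ▸ hx j))
  -- the dual Selmer group vanishes
  have hdual : selmerAdm (extArithLoc S) (dualOf p M)
      (dualConditions (extArithLoc S) M (dualOf p M)
        (assemblePairings p S M pa) (assembleConditions S M Lq))
      (continuousH1S S (dualOf p M)) = ⊥ := by
    rw [eq_bot_iff]
    intro y hy
    rw [mem_selmerAdm_iff] at hy
    obtain ⟨hy1, hy2⟩ := hy
    refine (Submodule.mem_bot _).mpr (hkill y hy2 fun q hq => ?_)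
    have h1 := hy1 (Sum.inr ⟨q, hQS hq⟩)
    refine hnd q hq _ (resH1At_mem_H1cAt q hy2) fun z hz => ?_
    exact (mem_orthogonal_iff _ _ _).mp h1 z (hLQ q hq hz)
  -- the Greenberg–Wiles inequality
  have hgw := hGW (assembleConditions S M Lq) hLfinv
  unfold greenbergWilesLeAdm at hgw
  rw [hdual, finrank_bot, hglob, sum_extArithIndex, sum_extArithIndex] at hgw
  have hbotL : finrank (ZMod p) (assembleConditions S M Lq (Sum.inl ())) = 0 :=
    finrank_bot _ _
  have hsumL : ∑ q : ↥S, finrank (ZMod p) (assembleConditions S M Lq (Sum.inr q)) ≤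
      ∑ q : ↥S, (h0At q.1 M + δ q.1 * finrank (ZMod p) k) :=
    Finset.sum_le_sum fun q _ => hLdim q.1 q.2
  have hsumδ : ∑ q : ↥S, δ q.1 * finrank (ZMod p) k =
      (∑ q ∈ S, δ q) * finrank (ZMod p) k := by
    rw [Finset.sum_mul, ← Finset.sum_coe_sort S (fun q => δ q * finrank (ZMod p) k)]
  rw [Finset.sum_add_distrib, hsumδ] at hsumL
  have hδ' : (∑ q ∈ S, δ q) * finrank (ZMod p) k ≤ (Q.card + 1) * finrank (ZMod p) k :=
    Nat.mul_le_mul_right _ hδ
  have hsel : finrank (ZMod p) (selmerAdm (extArithLoc S) M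
      (assembleConditions S M Lq) (continuousH1S S M)) ≤
      Q.card * finrank (ZMod p) k := by
    have hh : ∑ q : ↥S, finrank (ZMod p)
        (Rep.res (extArithLoc S (Sum.inr q)) M).ρ.invariants =
        ∑ q : ↥S, h0At q.1 M := rfl
    rw [hh] at hgw
    have harch3 : finrank (ZMod p) k ≤ finrank (ZMod p)
        (Rep.res (extArithLoc S (Sum.inl ())) M).ρ.invariants := harch2
    rw [add_mul, one_mul] at hδ'
    omega
  -- counting
  haveI := hfin
  haveI : Finite (selmerAdm (extArithLoc S) M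
      (assembleConditions S M Lq) (continuousH1S S M)) :=
    Module.finite_of_finite (ZMod p)
  have hcard := Nat.card_le_card_of_injective _ hxinj
  rw [Nat.card_eq_fintype_card, Module.natCard_eq_pow_finrank (K := ZMod p), Nat.card_zmod]
    at hcard
  refine hcard.trans ?_
  rw [Module.natCard_eq_pow_finrank (K := ZMod p) (V := k), Nat.card_zmod, ← pow_mul, mul_comm]
  exact Nat.pow_le_pow_right (Fact.out : p.Prime).pos hsel

open Fermat.Agent.TW.Spec.ContractB52 in
/-- **WP9 for the matrix model.** The contracts of `ContractB52` (+ the `GW` contracts of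
`Contract52`) give the tangent bound `|Def| ≤ |k|^{#Q}` for the enlarged set `S = Smin ∪ Q`. -/
theorem tangentBound_of_contractsB (ρbar : ResidualGaloisRep k) (rbar : GQ →* M₂ k)
    (S Q : Finset Nat.Primes) (hQS : Q ⊆ S)
    (cond : GaloisRepAdic (DualNumber k) → Prop)
    (hdet : ∀ ρ, cond ρ → ρ.DetIsCyclotomic p)
    (hunr : ∀ ρ, cond ρ → ∀ q : Nat.Primes, q ∉ S → ρ.IsUnramifiedAt q)
    (hC1 : CocycleExists p ρbar rbar) (hC2 : CocycleUnramified p rbar)
    (hC3 : CocycleInjective p rbar)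
    (Lq : ∀ q : Nat.Primes, Submodule (ZMod p) (H1 (resAt q (adM p rbar))))
    (hLfin : ∀ q ∈ S, FiniteDimensional (ZMod p) (Lq q))
    (δ : Nat.Primes → ℕ)
    (hLdim : ∀ q ∈ S, finrank (ZMod p) (Lq q) ≤
      h0At q (adM p rbar) + δ q * finrank (ZMod p) k)
    (hδ : ∑ q ∈ S, δ q ≤ Q.card + 1)
    (hLmem : ∀ (ρ : GaloisRepAdic (DualNumber k)) (x : H1 (adM p rbar)),
      IsLiftClass p rbar ρ x → cond ρ → ∀ q ∈ S, resH1At q (adM p rbar) x ∈ Lq q)
    (hLQ : ∀ q ∈ Q, H1cAt q (adM p rbar) ≤ Lq q)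
    (harch : ArchimedeanTerm p rbar) (hglob : GlobalInvariantsZero p rbar)
    (pa : PrimePairings p (adM p rbar))
    (hGW : GWInequality p S (adM p rbar) (assemblePairings p S (adM p rbar) pa))
    (hfin : FiniteDimensional (ZMod p) (continuousH1S S (adM p rbar)))
    (hnd : ∀ q ∈ Q, RightNondegAt p (adM p rbar) pa q)
    (hkill : KillsDual p rbar S Q) :
    TangentBound ρbar cond Q.card :=
  tangentBound_core ρbar (adM p rbar) (IsLiftClass p rbar) S Q hQS cond hdet hunr hC1
    (fun ρ x => hC2 S ρ x) hC3 Lq hLfin δ hLdim hδ hLmem hLQ harch.1 harch.2 hglob pa hGW hfin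
    hnd hkill

end Fermat.Agent.TW.Spec.AssemblyB52
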